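/-
PROGRAMME III (S48, Deligne–Serre), kernel DS0a' (helper2): the diamond operators on
`CuspForm (Gamma1 N) k`.

For `γ ∈ Γ₀(N)` the slash `f ∣[k] γ` of a `Γ₁(N)`-invariant function depends only on the
lower-right entry of `γ` modulo `N`; this gives `diamond d : CuspForm (Gamma1 N) k → CuspForm
(Gamma1 N) k` for `d : (ZMod N)ˣ`, with `⇑(diamond d f) = ⇑f ∣[k] γ` for ANY `γ ∈ Γ₀(N)` with
lower-right entry `≡ d`.
-/
import Mathlib
import Fermat.Prelude.Def_ModularForm_HeckeOperator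
import Fermat.Prelude.Def_FLTPrelim_Modularity
import Fermat.Prelude.Sol.S_CuspFormClass_isZeroAt_heckeT

set_option autoImplicit false

open scoped MatrixGroups ModularForm Manifold
open Matrix Matrix.SpecialLinearGroup UpperHalfPlane CongruenceSubgroup ModularForm

noncomputable section

namespace Fermat.Agent.DS.Neben

variable {N : ℕ} {k : ℤ}

/-! ### Entries of products and inverses in `SL(2, ℤ)` -/

theorem sl_det_eq_one (g : SL(2, ℤ)) : g 0 0 * g 1 1 - g 0 1 * g 1 0 = 1 := by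
  have h := g.det_coe
  rwa [Matrix.det_fin_two] at h

theorem sl_mul_apply_one_zero (g h : SL(2, ℤ)) :
    (g * h) 1 0 = g 1 0 * h 0 0 + g 1 1 * h 1 0 := by
  show (g.1 * h.1) 1 0 = _
  exact (Matrix.two_mul_expl g.1 h.1).2.2.1

theorem sl_mul_apply_one_one (g h : SL(2, ℤ)) :
    (g * h) 1 1 = g 1 0 * h 0 1 + g 1 1 * h 1 1 := by
  show (g.1 * h.1) 1 1 = _
  exact (Matrix.two_mul_expl g.1 h.1).2.2.2

theorem sl_inv_apply_zero_zero (g : SL(2, ℤ)) : (g⁻¹) 0 0 = g 1 1 := by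
  rw [SL2_inv_expl g]; rfl

theorem sl_inv_apply_zero_one (g : SL(2, ℤ)) : (g⁻¹) 0 1 = - g 0 1 := by
  rw [SL2_inv_expl g]; rfl

theorem sl_inv_apply_one_zero (g : SL(2, ℤ)) : (g⁻¹) 1 0 = - g 1 0 := by
  rw [SL2_inv_expl g]; rfl

theorem sl_inv_apply_one_one (g : SL(2, ℤ)) : (g⁻¹) 1 1 = g 0 0 := by
  rw [SL2_inv_expl g]; rfl

/-! ### `Γ₁(N)` inside `Γ₀(N)` -/

theorem lowerLeft_eq_zero {γ : SL(2, ℤ)} (hγ : γ ∈ Gamma0 N) : ((γ 1 0 : ℤ) : ZMod N) = 0 :=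
  Gamma0_mem.mp hγ

/-- for `γ ∈ Γ₀(N)`: `a d ≡ 1 mod N`. -/
theorem upperLeft_mul_lowerRight {γ : SL(2, ℤ)} (hγ : γ ∈ Gamma0 N) :
    ((γ 0 0 : ℤ) : ZMod N) * ((γ 1 1 : ℤ) : ZMod N) = 1 := by
  have := congrArg (Int.cast : ℤ → ZMod N) (sl_det_eq_one γ)
  push_cast at this
  rw [lowerLeft_eq_zero hγ] at this
  linear_combination this

theorem mem_Gamma1_of_mem_Gamma0 {γ : SL(2, ℤ)} (hγ : γ ∈ Gamma0 N)
    (hd : ((γ 1 1 : ℤ) : ZMod N) = 1) : γ ∈ Gamma1 N := by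
  rw [Gamma1_mem]
  refine ⟨?_, hd, lowerLeft_eq_zero hγ⟩
  have := upperLeft_mul_lowerRight hγ
  rwa [hd, mul_one] at this

theorem lowerRight_eq_one {γ : SL(2, ℤ)} (hγ : γ ∈ Gamma1 N) : ((γ 1 1 : ℤ) : ZMod N) = 1 :=
  ((Gamma1_mem N γ).mp hγ).2.1

/-- the lower-right entry is multiplicative modulo `N` on `Γ₀(N)`. -/
theorem lowerRight_mul {γ γ' : SL(2, ℤ)} (hγ : γ ∈ Gamma0 N) :
    (((γ * γ') 1 1 : ℤ) : ZMod N) = ((γ 1 1 : ℤ) : ZMod N) * ((γ' 1 1 : ℤ) : ZMod N) := by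
  rw [sl_mul_apply_one_one]
  push_cast
  rw [lowerLeft_eq_zero hγ]
  ring

theorem lowerRight_inv {γ : SL(2, ℤ)} (hγ : γ ∈ Gamma0 N) :
    ((γ 1 1 : ℤ) : ZMod N) * (((γ⁻¹) 1 1 : ℤ) : ZMod N) = 1 := by
  rw [sl_inv_apply_one_one, mul_comm]
  exact upperLeft_mul_lowerRight hγ

/-- `γ γ'⁻¹ ∈ Γ₁(N)` if `γ, γ' ∈ Γ₀(N)` have the same lower-right entry modulo `N`. -/
theorem mul_inv_mem_Gamma1 {γ γ' : SL(2, ℤ)} (hγ : γ ∈ Gamma0 N) (hγ' : γ' ∈ Gamma0 N)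
    (h : ((γ 1 1 : ℤ) : ZMod N) = ((γ' 1 1 : ℤ) : ZMod N)) : γ * γ'⁻¹ ∈ Gamma1 N := by
  refine mem_Gamma1_of_mem_Gamma0 (mul_mem hγ (inv_mem hγ')) ?_
  rw [lowerRight_mul hγ, h]
  exact lowerRight_inv hγ'

/-- the function-level statement: the slash by `γ ∈ Γ₀(N)` of a `Γ₁(N)`-invariant function
depends only on the lower-right entry of `γ` modulo `N`. -/
theorem slash_eq_of_lowerRight_eq {f : ℍ → ℂ} (hf : ∀ g : SL(2, ℤ), g ∈ Gamma1 N → f ∣[k] g = f)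
    {γ γ' : SL(2, ℤ)} (hγ : γ ∈ Gamma0 N) (hγ' : γ' ∈ Gamma0 N)
    (h : ((γ 1 1 : ℤ) : ZMod N) = ((γ' 1 1 : ℤ) : ZMod N)) : f ∣[k] γ = f ∣[k] γ' := by
  have h1 := hf _ (mul_inv_mem_Gamma1 hγ hγ' h)
  calc f ∣[k] γ = f ∣[k] (γ * γ'⁻¹ * γ') := by rw [inv_mul_cancel_right]
    _ = (f ∣[k] (γ * γ'⁻¹)) ∣[k] γ' := SlashAction.slash_mul _ _ _ _
    _ = f ∣[k] γ' := by rw [h1]

/-- the slash by `γ ∈ Γ₀(N)` of a `Γ₁(N)`-invariant function is `Γ₁(N)`-invariant. -/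
theorem slash_Gamma0_invariant {f : ℍ → ℂ} (hf : ∀ g : SL(2, ℤ), g ∈ Gamma1 N → f ∣[k] g = f)
    {γ : SL(2, ℤ)} (hγ : γ ∈ Gamma0 N) {g : SL(2, ℤ)} (hg : g ∈ Gamma1 N) :
    (f ∣[k] γ) ∣[k] g = f ∣[k] γ := by
  rw [← SlashAction.slash_mul]
  refine slash_eq_of_lowerRight_eq hf (mul_mem hγ (Gamma1_in_Gamma0 N hg)) hγ ?_
  rw [lowerRight_mul hγ, lowerRight_eq_one hg, mul_one]

/-- every unit class modulo `N` is the lower-right entry of some element of `Γ₀(N)`. -/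
theorem exists_mem_Gamma0_lowerRight_eq [NeZero N] (d : (ZMod N)ˣ) :
    ∃ γ : SL(2, ℤ), γ ∈ Gamma0 N ∧ ((γ 1 1 : ℤ) : ZMod N) = d := by
  have hcop : IsCoprime ((d : ZMod N).val : ℤ) (N : ℤ) :=
    Nat.isCoprime_iff_coprime.mpr (ZMod.val_coe_unit_coprime d)
  obtain ⟨a, b, hab⟩ := hcop
  have hdet : (!![a, -b; (N : ℤ), ((d : ZMod N).val : ℤ)] : Matrix (Fin 2) (Fin 2) ℤ).det = 1 := by
    rw [Matrix.det_fin_two_of]
    linear_combination hab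
  refine ⟨(⟨!![a, -b; (N : ℤ), ((d : ZMod N).val : ℤ)], hdet⟩ : SL(2, ℤ)), ?_, ?_⟩
  · refine Gamma0_mem.mpr ?_
    show (((N : ℤ) : ℤ) : ZMod N) = 0
    simp
  · show ((((d : ZMod N).val : ℤ) : ℤ) : ZMod N) = d
    simp

/-! ### The operators on cusp forms -/

theorem map_castHom_mapGL (γ : SL(2, ℤ)) :
    Matrix.GeneralLinearGroup.map (Rat.castHom ℝ) (mapGL ℚ γ) = mapGL ℝ γ := by
  rw [show Rat.castHom ℝ = algebraMap ℚ ℝ from rfl, map_mapGL]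

theorem slash_eq_self_of_mem_Gamma1 {F : Type*} [FunLike F ℍ ℂ]
    [SlashInvariantFormClass F (Gamma1 N : Subgroup (GL (Fin 2) ℝ)) k] (f : F)
    {g : SL(2, ℤ)} (hg : g ∈ Gamma1 N) : ⇑f ∣[k] g = ⇑f :=
  SlashInvariantFormClass.slash_action_eq f _ (Subgroup.mem_map_of_mem (mapGL ℝ) hg)

variable [NeZero N]

/-- the slash by `γ ∈ Γ₀(N)` as an operator on `S_k(Γ₁(N))`. -/
def slashGamma0 (γ : SL(2, ℤ)) (hγ : γ ∈ Gamma0 N)
    (f : CuspForm (Gamma1 N : Subgroup (GL (Fin 2) ℝ)) k) :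
    CuspForm (Gamma1 N : Subgroup (GL (Fin 2) ℝ)) k where
  toFun := ⇑f ∣[k] γ
  slash_action_eq' := by
    rintro g ⟨g0, hg0, rfl⟩
    exact slash_Gamma0_invariant (fun g hg => slash_eq_self_of_mem_Gamma1 f hg) hγ hg0
  holo' := (CuspFormClass.holo f).slash k _
  zero_at_cusps' := fun {c} hc => by
    have := P2MW.S_CuspFormClass_isZeroAt_heckeT.ModularForm.S06W2.isZeroAt_slash_ratCast f
      (mapGL ℚ γ) hc
    rwa [map_castHom_mapGL] at this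

@[simp] theorem coe_slashGamma0 (γ : SL(2, ℤ)) (hγ : γ ∈ Gamma0 N)
    (f : CuspForm (Gamma1 N : Subgroup (GL (Fin 2) ℝ)) k) :
    ⇑(slashGamma0 γ hγ f) = ⇑f ∣[k] γ := rfl

/-- **the diamond operator** `⟨d⟩` on `S_k(Γ₁(N))`, `d : (ZMod N)ˣ`. -/
def diamond (d : (ZMod N)ˣ) (f : CuspForm (Gamma1 N : Subgroup (GL (Fin 2) ℝ)) k) :
    CuspForm (Gamma1 N : Subgroup (GL (Fin 2) ℝ)) k :=
  slashGamma0 (exists_mem_Gamma0_lowerRight_eq d).choose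
    (exists_mem_Gamma0_lowerRight_eq d).choose_spec.1 f

/-- `⟨d⟩ f = f ∣[k] γ` for ANY `γ ∈ Γ₀(N)` with lower-right entry `≡ d mod N`. -/
theorem coe_diamond (d : (ZMod N)ˣ) (f : CuspForm (Gamma1 N : Subgroup (GL (Fin 2) ℝ)) k)
    {γ : SL(2, ℤ)} (hγ : γ ∈ Gamma0 N) (hd : ((γ 1 1 : ℤ) : ZMod N) = d) :
    ⇑(diamond d f) = ⇑f ∣[k] γ := by
  rw [diamond, coe_slashGamma0]
  refine slash_eq_of_lowerRight_eq (fun g hg => slash_eq_self_of_mem_Gamma1 f hg)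
    (exists_mem_Gamma0_lowerRight_eq d).choose_spec.1 hγ ?_
  rw [(exists_mem_Gamma0_lowerRight_eq d).choose_spec.2, hd]

theorem diamond_eq_slashGamma0 (d : (ZMod N)ˣ)
    (f : CuspForm (Gamma1 N : Subgroup (GL (Fin 2) ℝ)) k)
    {γ : SL(2, ℤ)} (hγ : γ ∈ Gamma0 N) (hd : ((γ 1 1 : ℤ) : ZMod N) = d) :
    diamond d f = slashGamma0 γ hγ f :=
  DFunLike.coe_injective (coe_diamond d f hγ hd)

theorem diamond_add (d : (ZMod N)ˣ) (f g : CuspForm (Gamma1 N : Subgroup (GL (Fin 2) ℝ)) k) :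
    diamond d (f + g) = diamond d f + diamond d g := by
  apply DFunLike.coe_injective
  obtain ⟨γ, hγ, hd⟩ := exists_mem_Gamma0_lowerRight_eq d
  rw [FunLike.coe_add, coe_diamond d _ hγ hd, coe_diamond d _ hγ hd, coe_diamond d _ hγ hd,
    FunLike.coe_add, SlashAction.add_slash]

theorem diamond_smul (d : (ZMod N)ˣ) (c : ℂ)
    (f : CuspForm (Gamma1 N : Subgroup (GL (Fin 2) ℝ)) k) :
    diamond d (c • f) = c • diamond d f := by
  apply DFunLike.coe_injective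
  obtain ⟨γ, hγ, hd⟩ := exists_mem_Gamma0_lowerRight_eq d
  rw [FunLike.coe_smul, coe_diamond d _ hγ hd, coe_diamond d _ hγ hd,
    FunLike.coe_smul, ModularForm.SL_smul_slash]

theorem diamond_one (f : CuspForm (Gamma1 N : Subgroup (GL (Fin 2) ℝ)) k) :
    diamond 1 f = f := by
  apply DFunLike.coe_injective
  rw [coe_diamond 1 f (one_mem _) (by simp)]
  exact SlashAction.slash_one _ _

theorem diamond_mul (d d' : (ZMod N)ˣ) (f : CuspForm (Gamma1 N : Subgroup (GL (Fin 2) ℝ)) k) :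
    diamond (d * d') f = diamond d' (diamond d f) := by
  apply DFunLike.coe_injective
  obtain ⟨γ, hγ, hd⟩ := exists_mem_Gamma0_lowerRight_eq d
  obtain ⟨γ', hγ', hd'⟩ := exists_mem_Gamma0_lowerRight_eq d'
  rw [coe_diamond d' _ hγ' hd', coe_diamond d f hγ hd,
    coe_diamond (d * d') f (mul_mem hγ hγ') (by rw [lowerRight_mul hγ, hd, hd']; simp),
    SlashAction.slash_mul]

end Fermat.Agent.DS.Neben
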