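/-
PROGRAMME III (S48, Deligne–Serre), kernel DS0b (helper2): the Hecke operator `T_p` (`p ∤ N`) on
`CuspForm (Gamma1 N) k`, with its `q`-expansion.

`T_p f = ∑_{j < p} f ∣[k] (1 j; 0 p) + (⟨p⟩ f) ∣[k] (p 0; 0 1)`
      `= heckeU k p f + (⟨p⟩ f) ∣[k] heckeDiagMatrix p` (Prelude matrices), and
`a_n(T_p f) = a_{np}(f) + [p ∣ n] p^{k-1} a_{n/p}(⟨p⟩ f)`.

The `Γ₁(N)`-invariance is the Prelude's `Γ₀(N)` proof (four commutation lemmas
`β g = g' β'`, permutation of `ℙ¹(𝔽_p)`) with the lower-right entries of the `g'` tracked.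
-/
import Mathlib
import Fermat.Prelude.Def_ModularForm_HeckeOperator
import Fermat.Prelude.Def_FLTPrelim_Modularity
import Fermat.Prelude.Sol.S_CuspFormClass_isZeroAt_heckeT
import Fermat.Prelude.Sol.S_UpperHalfPlane_qCoeff_heckeT
import Fermat.Agent.DS.Neben.Diamond

set_option autoImplicit false

open scoped MatrixGroups ModularForm Manifold OnePoint
open Matrix Matrix.SpecialLinearGroup UpperHalfPlane CongruenceSubgroup ModularForm

noncomputable section

namespace Fermat.Agent.DS.Neben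

/-! ### The four commutation lemmas `β g = g' β'`, with the bottom row of `g'` -/

section commutation

variable {p : ℕ} (hp : p ≠ 0)
include hp

theorem heckeMatrix_mul_heckeMatrix (g : SL(2, ℤ)) (j j' : ℕ) (e : ℤ)
    (he : g 0 1 + j * g 1 1 = j' * (g 0 0 + j * g 1 0) + p * e) :
    ∃ g' : SL(2, ℤ), g' 1 0 = p * g 1 0 ∧ g' 1 1 = g 1 1 - g 1 0 * j' ∧
      heckeMatrix p j * mapGL ℝ g = mapGL ℝ g' * heckeMatrix p j' := by
  have hdet := sl_det_eq_one g
  refine ⟨⟨!![g 0 0 + j * g 1 0, e; p * g 1 0, g 1 1 - g 1 0 * j'], ?_⟩, rfl, rfl, ?_⟩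
  · rw [Matrix.det_fin_two_of]
    linear_combination hdet + (g 1 0) * he
  · ext i j
    fin_cases i <;> fin_cases j <;>
      simp [hp, Matrix.mul_apply, Fin.sum_univ_two]
    all_goals first
      | (have := congrArg (Int.cast : ℤ → ℝ) he; push_cast at this ⊢; linear_combination this)
      | (have := congrArg (Int.cast : ℤ → ℝ) he; push_cast at this ⊢; linear_combination -this)
      | ring1

theorem heckeMatrix_mul_heckeDiagMatrix (g : SL(2, ℤ)) (j : ℕ) (e : ℤ)
    (he : g 0 0 + j * g 1 0 = p * e) :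
    ∃ g' : SL(2, ℤ), g' 1 0 = g 1 0 ∧ g' 1 1 = p * g 1 1 ∧
      heckeMatrix p j * mapGL ℝ g = mapGL ℝ g' * heckeDiagMatrix p := by
  have hdet := sl_det_eq_one g
  refine ⟨⟨!![e, g 0 1 + j * g 1 1; g 1 0, p * g 1 1], ?_⟩, rfl, rfl, ?_⟩
  · rw [Matrix.det_fin_two_of]
    linear_combination hdet - (g 1 1) * he
  · ext i j
    fin_cases i <;> fin_cases j <;>
      simp [hp, Matrix.mul_apply, Fin.sum_univ_two]
    all_goals first
      | (have := congrArg (Int.cast : ℤ → ℝ) he; push_cast at this ⊢; linear_combination this)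
      | (have := congrArg (Int.cast : ℤ → ℝ) he; push_cast at this ⊢; linear_combination -this)
      | ring1

theorem heckeDiagMatrix_mul_heckeMatrix (g : SL(2, ℤ)) (j' : ℕ) (e : ℤ)
    (he : g 1 1 = g 1 0 * j' + p * e) :
    ∃ g' : SL(2, ℤ), g' 1 0 = g 1 0 ∧ g' 1 1 = e ∧
      heckeDiagMatrix p * mapGL ℝ g = mapGL ℝ g' * heckeMatrix p j' := by
  have hdet := sl_det_eq_one g
  refine ⟨⟨!![p * g 0 0, g 0 1 - g 0 0 * j'; g 1 0, e], ?_⟩, rfl, rfl, ?_⟩
  · rw [Matrix.det_fin_two_of]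
    linear_combination hdet - (g 0 0) * he
  · ext i j
    fin_cases i <;> fin_cases j <;>
      simp [hp, Matrix.mul_apply, Fin.sum_univ_two]
    all_goals first
      | (have := congrArg (Int.cast : ℤ → ℝ) he; push_cast at this ⊢; linear_combination this)
      | (have := congrArg (Int.cast : ℤ → ℝ) he; push_cast at this ⊢; linear_combination -this)
      | ring1

theorem heckeDiagMatrix_mul_heckeDiagMatrix (g : SL(2, ℤ)) (e : ℤ) (he : g 1 0 = p * e) :
    ∃ g' : SL(2, ℤ), g' 1 0 = e ∧ g' 1 1 = g 1 1 ∧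
      heckeDiagMatrix p * mapGL ℝ g = mapGL ℝ g' * heckeDiagMatrix p := by
  have hdet := sl_det_eq_one g
  refine ⟨⟨!![g 0 0, p * g 0 1; e, g 1 1], ?_⟩, rfl, rfl, ?_⟩
  · rw [Matrix.det_fin_two_of]
    linear_combination hdet + (g 0 1) * he
  · ext i j
    fin_cases i <;> fin_cases j <;>
      simp [hp, Matrix.mul_apply, Fin.sum_univ_two]
    all_goals first
      | (have := congrArg (Int.cast : ℤ → ℝ) he; push_cast at this ⊢; linear_combination this)
      | (have := congrArg (Int.cast : ℤ → ℝ) he; push_cast at this ⊢; linear_combination -this)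
      | ring1

end commutation

/-! ### Reindexing the sum over `ℙ¹(𝔽_p)` -/

section reindex

variable {p : ℕ} [NeZero p]

theorem sum_range_eq_sum_zmod {M : Type*} [AddCommMonoid M] (F : ℕ → M) :
    ∑ j ∈ Finset.range p, F j = ∑ x : ZMod p, F x.val := by
  refine Finset.sum_nbij' (fun j : ℕ ↦ (j : ZMod p)) (fun x : ZMod p ↦ x.val)
    (fun _ _ ↦ Finset.mem_univ _) (fun x _ ↦ Finset.mem_range.mpr x.val_lt) (fun j hj ↦ ?_)
    (fun x _ ↦ ?_) (fun j hj ↦ ?_)
  · exact ZMod.val_cast_of_lt (Finset.mem_range.mp hj)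
  · exact ZMod.natCast_zmod_val x
  · rw [ZMod.val_cast_of_lt (Finset.mem_range.mp hj)]

theorem heckeU_eq_sum_zmod (k : ℤ) (f : ℍ → ℂ) :
    heckeU k p f = ∑ x : ZMod p, f ∣[k] heckeMatrix p x.val := by
  rw [heckeU_def]
  exact sum_range_eq_sum_zmod _

end reindex

section twisted

variable {p : ℕ}

/-- the `p + 1` representatives: `(p 0; 0 1)` at `∞`, `(1 j; 0 p)` at `j`. -/
def heckeRep (p : ℕ) (x : OnePoint (ZMod p)) : GL (Fin 2) ℝ :=
  x.elim (heckeDiagMatrix p) (fun j ↦ heckeMatrix p j.val)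

@[simp] theorem heckeRep_infty : heckeRep p ∞ = heckeDiagMatrix p := rfl

@[simp] theorem heckeRep_coe (j : ZMod p) : heckeRep p j = heckeMatrix p j.val := rfl

/-- the function slashed by the representative at `x`: `f'` at `∞`, `f` at the finite points. -/
def twistFn (f f' : ℍ → ℂ) (x : OnePoint (ZMod p)) : ℍ → ℂ :=
  x.elim f' (fun _ ↦ f)

@[simp] theorem twistFn_infty (f f' : ℍ → ℂ) : twistFn (p := p) f f' ∞ = f' := rfl

@[simp] theorem twistFn_coe (f f' : ℍ → ℂ) (j : ZMod p) : twistFn f f' (j : OnePoint (ZMod p)) = f :=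
  rfl

/-- the lower-right entry of `heckeRep p x`, modulo `N`. -/
def lowerRightRep (N : ℕ) (x : OnePoint (ZMod p)) : ZMod N :=
  x.elim 1 (fun _ ↦ (p : ZMod N))

@[simp] theorem lowerRightRep_infty (N : ℕ) : lowerRightRep (p := p) N ∞ = 1 := rfl

@[simp] theorem lowerRightRep_coe (N : ℕ) (j : ZMod p) :
    lowerRightRep N (j : OnePoint (ZMod p)) = (p : ZMod N) := rfl

theorem heckeT1Fun_eq_sum [NeZero p] (k : ℤ) (f f' : ℍ → ℂ) :
    heckeU k p f + f' ∣[k] heckeDiagMatrix p =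
      ∑ x : OnePoint (ZMod p), twistFn f f' x ∣[k] heckeRep p x := by
  rw [heckeU_eq_sum_zmod, add_comm]
  exact (Fintype.sum_option
    (fun x : OnePoint (ZMod p) ↦ twistFn f f' x ∣[k] heckeRep p x)).symm

variable [Fact p.Prime]

variable (p) in
/-- the reduction of `g` modulo `p`, acting on `ℙ¹(𝔽_p)` as the permutation of the
representatives induced by right multiplication by `g`. -/
def redMatrix (g : SL(2, ℤ)) : GL (Fin 2) (ZMod p) :=
  Matrix.GeneralLinearGroup.mkOfDetNeZero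
    !![((g 1 1 : ℤ) : ZMod p), ((g 0 1 : ℤ) : ZMod p);
      ((g 1 0 : ℤ) : ZMod p), ((g 0 0 : ℤ) : ZMod p)]
    (by
      have := congrArg (Int.cast : ℤ → ZMod p) (sl_det_eq_one g)
      push_cast at this
      rw [Matrix.det_fin_two_of,
        show ((g 1 1 : ℤ) : ZMod p) * ((g 0 0 : ℤ) : ZMod p)
            - ((g 0 1 : ℤ) : ZMod p) * ((g 1 0 : ℤ) : ZMod p) = 1 by linear_combination this]
      exact one_ne_zero)

@[simp] theorem redMatrix_apply_zero_zero (g : SL(2, ℤ)) :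
    redMatrix p g 0 0 = ((g 1 1 : ℤ) : ZMod p) := by
  simp [redMatrix]

@[simp] theorem redMatrix_apply_zero_one (g : SL(2, ℤ)) :
    redMatrix p g 0 1 = ((g 0 1 : ℤ) : ZMod p) := by
  simp [redMatrix]

@[simp] theorem redMatrix_apply_one_zero (g : SL(2, ℤ)) :
    redMatrix p g 1 0 = ((g 1 0 : ℤ) : ZMod p) := by
  simp [redMatrix]

@[simp] theorem redMatrix_apply_one_one (g : SL(2, ℤ)) :
    redMatrix p g 1 1 = ((g 0 0 : ℤ) : ZMod p) := by
  simp [redMatrix]

theorem neZero_of_fact_prime : NeZero p := ⟨(Fact.out : p.Prime).ne_zero⟩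

/-- **the coset computation**: for `g ∈ Γ₀(N)`, `β_x g = g' β_{x'}` with `g' ∈ Γ₀(N)`,
`x' = ḡ • x`, and `d(β_{x'}) d(g') ≡ d(β_x) d(g) mod N`. -/
theorem heckeRep_mul {N : ℕ} (hpN : ¬ p ∣ N) (g : SL(2, ℤ)) (hg : g ∈ Gamma0 N)
    (x : OnePoint (ZMod p)) :
    ∃ g' : SL(2, ℤ), g' ∈ Gamma0 N ∧
      lowerRightRep N (redMatrix p g • x) * ((g' 1 1 : ℤ) : ZMod N) =
        lowerRightRep N x * ((g 1 1 : ℤ) : ZMod N) ∧
      heckeRep p x * mapGL ℝ g = mapGL ℝ g' * heckeRep p (redMatrix p g • x) := by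
  have : NeZero p := neZero_of_fact_prime
  have hp : p ≠ 0 := (Fact.out : p.Prime).ne_zero
  have hg0 : ((g 1 0 : ℤ) : ZMod N) = 0 := lowerLeft_eq_zero hg
  induction x using OnePoint.rec with
  | infty =>
    rw [OnePoint.smul_infty_eq_ite]
    by_cases hc : ((g 1 0 : ℤ) : ZMod p) = 0
    · rw [if_pos (by simpa using hc), heckeRep_infty, lowerRightRep_infty]
      obtain ⟨e, he⟩ := (ZMod.intCast_zmod_eq_zero_iff_dvd _ _).mp hc
      obtain ⟨g', hg', hg'd, hmul⟩ := heckeDiagMatrix_mul_heckeDiagMatrix hp g e he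
      refine ⟨g', ?_, by rw [hg'd], hmul⟩
      refine Gamma0_mem.mpr ?_
      rw [hg', ZMod.intCast_zmod_eq_zero_iff_dvd]
      have hcop : IsCoprime (N : ℤ) (p : ℤ) :=
        Nat.isCoprime_iff_coprime.mpr ((Nat.Prime.coprime_iff_not_dvd Fact.out).mpr hpN).symm
      have hN : (N : ℤ) ∣ g 1 0 := (ZMod.intCast_zmod_eq_zero_iff_dvd _ _).mp hg0
      exact hcop.dvd_of_dvd_mul_left (he ▸ hN)
    · rw [if_neg (by simpa using hc), heckeRep_infty, heckeRep_coe, lowerRightRep_infty,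
        lowerRightRep_coe]
      set y : ZMod p := redMatrix p g 0 0 / redMatrix p g 1 0 with hy
      obtain ⟨e, he⟩ : (p : ℤ) ∣ g 1 1 - g 1 0 * y.val := by
        rw [← ZMod.intCast_zmod_eq_zero_iff_dvd]
        push_cast
        rw [ZMod.natCast_zmod_val, hy, redMatrix_apply_zero_zero, redMatrix_apply_one_zero,
          mul_div_cancel₀ _ hc, sub_self]
      obtain ⟨g', hg', hg'd, hmul⟩ :=
        heckeDiagMatrix_mul_heckeMatrix hp g y.val e (by linear_combination he)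
      refine ⟨g', Gamma0_mem.mpr (by rw [hg']; exact hg0), ?_, hmul⟩
      rw [hg'd, one_mul]
      have := congrArg (Int.cast : ℤ → ZMod N) he
      push_cast at this
      rw [hg0] at this
      linear_combination -this
  | coe j =>
    rw [OnePoint.smul_some_eq_ite]
    by_cases h : redMatrix p g 1 0 * j + redMatrix p g 1 1 = 0
    · rw [if_pos h, heckeRep_infty, heckeRep_coe, lowerRightRep_infty, lowerRightRep_coe]
      rw [redMatrix_apply_one_zero, redMatrix_apply_one_one] at h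
      obtain ⟨e, he⟩ : (p : ℤ) ∣ g 0 0 + j.val * g 1 0 := by
        rw [← ZMod.intCast_zmod_eq_zero_iff_dvd]
        push_cast
        rw [ZMod.natCast_zmod_val]
        linear_combination h
      obtain ⟨g', hg', hg'd, hmul⟩ := heckeMatrix_mul_heckeDiagMatrix hp g j.val e he
      refine ⟨g', Gamma0_mem.mpr (by rw [hg']; exact hg0), ?_, hmul⟩
      rw [hg'd]
      push_cast
      ring
    · rw [if_neg h, heckeRep_coe, heckeRep_coe, lowerRightRep_coe, lowerRightRep_coe]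
      set y : ZMod p := (redMatrix p g 0 0 * j + redMatrix p g 0 1) /
        (redMatrix p g 1 0 * j + redMatrix p g 1 1) with hy
      obtain ⟨e, he⟩ : (p : ℤ) ∣ g 0 1 + j.val * g 1 1 - y.val * (g 0 0 + j.val * g 1 0) := by
        rw [← ZMod.intCast_zmod_eq_zero_iff_dvd]
        push_cast
        rw [ZMod.natCast_zmod_val, ZMod.natCast_zmod_val,
          show ((g 0 0 : ℤ) : ZMod p) + j * ((g 1 0 : ℤ) : ZMod p)
            = redMatrix p g 1 0 * j + redMatrix p g 1 1 by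
              rw [redMatrix_apply_one_zero, redMatrix_apply_one_one]; ring,
          hy, div_mul_cancel₀ _ h, redMatrix_apply_zero_zero, redMatrix_apply_zero_one]
        ring
      obtain ⟨g', hg', hg'd, hmul⟩ :=
        heckeMatrix_mul_heckeMatrix hp g j.val y.val e (by linear_combination he)
      refine ⟨g', Gamma0_mem.mpr (by rw [hg']; push_cast; rw [hg0, mul_zero]), ?_, hmul⟩
      rw [hg'd]
      push_cast
      rw [hg0]
      ring

/-- how `Γ₀(N)` moves the twisted pair `(f, f')`, `f' = ⟨p⟩ f`. -/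
theorem twistFn_slash {N : ℕ} [NeZero N] {k : ℤ} (hpN : ¬ p ∣ N) {f f' : ℍ → ℂ}
    (hf : ∀ g : SL(2, ℤ), g ∈ Gamma1 N → f ∣[k] g = f)
    (hf' : ∀ γ : SL(2, ℤ), γ ∈ Gamma0 N → ((γ 1 1 : ℤ) : ZMod N) = (p : ZMod N) → f ∣[k] γ = f')
    (x x' : OnePoint (ZMod p)) {g' : SL(2, ℤ)} (hg' : g' ∈ Gamma0 N)
    (h : lowerRightRep N x' * ((g' 1 1 : ℤ) : ZMod N) = lowerRightRep N x) :
    twistFn f f' x ∣[k] g' = twistFn f f' x' := by
  have hcop : Nat.Coprime p N := (Nat.Prime.coprime_iff_not_dvd Fact.out).mpr hpN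
  obtain ⟨γ₀, hγ₀, hγ₀d⟩ := exists_mem_Gamma0_lowerRight_eq (ZMod.unitOfCoprime p hcop)
  rw [ZMod.coe_unitOfCoprime] at hγ₀d
  have hf'eq : f' = f ∣[k] γ₀ := (hf' γ₀ hγ₀ hγ₀d).symm
  have hunit : IsUnit ((p : ℕ) : ZMod N) := (ZMod.isUnit_iff_coprime p N).mpr hcop
  induction x using OnePoint.rec with
  | infty =>
    induction x' using OnePoint.rec with
    | infty =>
      rw [lowerRightRep_infty, one_mul] at h
      rw [twistFn_infty, hf'eq]
      exact slash_Gamma0_invariant hf hγ₀ (mem_Gamma1_of_mem_Gamma0 hg' h)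
    | coe j' =>
      rw [lowerRightRep_infty, lowerRightRep_coe] at h
      rw [twistFn_infty, twistFn_coe, hf'eq, ← SlashAction.slash_mul]
      refine hf _ (mem_Gamma1_of_mem_Gamma0 (mul_mem hγ₀ hg') ?_)
      rw [lowerRight_mul hγ₀, hγ₀d, h]
  | coe j =>
    induction x' using OnePoint.rec with
    | infty =>
      rw [lowerRightRep_infty, lowerRightRep_coe, one_mul] at h
      rw [twistFn_infty, twistFn_coe]
      exact hf' g' hg' h
    | coe j' =>
      rw [lowerRightRep_coe, lowerRightRep_coe] at h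
      rw [twistFn_coe, twistFn_coe]
      refine hf _ (mem_Gamma1_of_mem_Gamma0 hg' ?_)
      exact hunit.mul_left_cancel (by rw [h, mul_one])

/-- **`Γ₁(N)`-invariance of `T_p f = U_p f + (⟨p⟩ f) ∣ (p 0; 0 1)`** (function level). -/
theorem heckeT1Fun_slash {N : ℕ} [NeZero N] (k : ℤ) (hpN : ¬ p ∣ N) {f f' : ℍ → ℂ}
    (hf : ∀ g : SL(2, ℤ), g ∈ Gamma1 N → f ∣[k] g = f)
    (hf' : ∀ γ : SL(2, ℤ), γ ∈ Gamma0 N → ((γ 1 1 : ℤ) : ZMod N) = (p : ZMod N) → f ∣[k] γ = f')
    {g : SL(2, ℤ)} (hg : g ∈ Gamma1 N) :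
    (heckeU k p f + f' ∣[k] heckeDiagMatrix p) ∣[k] (mapGL ℝ g) =
      heckeU k p f + f' ∣[k] heckeDiagMatrix p := by
  have : NeZero p := neZero_of_fact_prime
  rw [heckeT1Fun_eq_sum k f f', SlashAction.sum_slash]
  calc ∑ x : OnePoint (ZMod p), (twistFn f f' x ∣[k] heckeRep p x) ∣[k] mapGL ℝ g
      = ∑ x : OnePoint (ZMod p),
          twistFn f f' (redMatrix p g • x) ∣[k] heckeRep p (redMatrix p g • x) := by
        refine Finset.sum_congr rfl fun x _ ↦ ?_
        obtain ⟨g', hg', hd, hmul⟩ := heckeRep_mul hpN g (Gamma1_in_Gamma0 N hg) x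
        rw [lowerRight_eq_one hg, mul_one] at hd
        rw [← SlashAction.slash_mul, hmul, SlashAction.slash_mul]
        congr 1
        exact twistFn_slash hpN hf hf' x _ hg' hd
    _ = ∑ x : OnePoint (ZMod p), twistFn f f' x ∣[k] heckeRep p x :=
        Equiv.sum_comp (MulAction.toPerm (redMatrix p g))
          (fun x ↦ twistFn f f' x ∣[k] heckeRep p x)

end twisted

/-! ### `T_p` on `S_k(Γ₁(N))` -/

section operator

variable {N : ℕ} {k : ℤ} {p : ℕ}

/-- the class of the prime `p ∤ N` in `(ZMod N)ˣ`. -/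
def primeUnit (hp : p.Prime) (hpN : ¬ p ∣ N) : (ZMod N)ˣ :=
  ZMod.unitOfCoprime p ((Nat.Prime.coprime_iff_not_dvd hp).mpr hpN)

@[simp] theorem coe_primeUnit (hp : p.Prime) (hpN : ¬ p ∣ N) :
    ((primeUnit hp hpN : (ZMod N)ˣ) : ZMod N) = (p : ZMod N) :=
  ZMod.coe_unitOfCoprime _ _

theorem one_mem_strictPeriods_Gamma1' (N : ℕ) :
    (1 : ℝ) ∈ (Gamma1 N : Subgroup (GL (Fin 2) ℝ)).strictPeriods := by
  rw [strictPeriods_Gamma1]
  exact AddSubgroup.mem_zmultiples 1

variable [NeZero N]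

/-- **the Hecke operator `T_p`, `p ∤ N`, on `S_k(Γ₁(N))`.** -/
def heckeT1 (hp : p.Prime) (hpN : ¬ p ∣ N)
    (f : CuspForm (Gamma1 N : Subgroup (GL (Fin 2) ℝ)) k) :
    CuspForm (Gamma1 N : Subgroup (GL (Fin 2) ℝ)) k where
  toFun := heckeU k p ⇑f + ⇑(diamond (primeUnit hp hpN) f) ∣[k] heckeDiagMatrix p
  slash_action_eq' := by
    rintro g ⟨g0, hg0, rfl⟩
    have : Fact p.Prime := ⟨hp⟩
    refine heckeT1Fun_slash k hpN (fun g hg => slash_eq_self_of_mem_Gamma1 f hg) ?_ hg0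
    intro γ hγ hd
    exact (coe_diamond (primeUnit hp hpN) f hγ (by rw [hd, coe_primeUnit])).symm
  holo' :=
    (P2MW.S_UpperHalfPlane_qCoeff_heckeT.M4cP1W2.mdifferentiable_heckeU k p
      (CuspFormClass.holo f)).add
      ((CuspFormClass.holo (diamond (primeUnit hp hpN) f)).slash k _)
  zero_at_cusps' := fun {c} hc => by
    refine (P2MW.S_CuspFormClass_isZeroAt_heckeT.ModularForm.S06W2.isZeroAt_heckeU f p hc).add ?_
    obtain ⟨g, hg⟩ :=
      P2MW.S_CuspFormClass_isZeroAt_heckeT.ModularForm.S06W2.exists_heckeDiagMatrix_eq_map p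
    rw [hg]
    exact P2MW.S_CuspFormClass_isZeroAt_heckeT.ModularForm.S06W2.isZeroAt_slash_ratCast
      (diamond (primeUnit hp hpN) f) g hc

theorem coe_heckeT1 (hp : p.Prime) (hpN : ¬ p ∣ N)
    (f : CuspForm (Gamma1 N : Subgroup (GL (Fin 2) ℝ)) k) :
    ⇑(heckeT1 hp hpN f) =
      heckeU k p ⇑f + ⇑(diamond (primeUnit hp hpN) f) ∣[k] heckeDiagMatrix p := rfl

/-- **the `q`-expansion of `T_p f`**:
`a_n(T_p f) = a_{np}(f) + [p ∣ n] p^{k-1} a_{n/p}(⟨p⟩ f)`. -/
theorem qCoeff_heckeT1 (hp : p.Prime) (hpN : ¬ p ∣ N)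
    (f : CuspForm (Gamma1 N : Subgroup (GL (Fin 2) ℝ)) k) (n : ℕ) :
    ModularFormClass.qCoeff (heckeT1 hp hpN f) n =
      ModularFormClass.qCoeff f (n * p) +
        if p ∣ n then (p : ℂ) ^ (k - 1) *
          ModularFormClass.qCoeff (diamond (primeUnit hp hpN) f) (n / p) else 0 := by
  have hp0 : p ≠ 0 := hp.ne_zero
  have hΓ := one_mem_strictPeriods_Gamma1' N
  have : Fact (IsCusp OnePoint.infty (Gamma1 N : Subgroup (GL (Fin 2) ℝ))) :=
    ⟨Subgroup.isCusp_of_mem_strictPeriods one_pos hΓ⟩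
  set f' := diamond (primeUnit hp hpN) f with hf'
  have hsum : ∀ τ : ℍ, HasSum (fun m : ℕ ↦
      (ModularFormClass.qCoeff f (m * p) +
        if p ∣ m then (p : ℂ) ^ (k - 1) * ModularFormClass.qCoeff f' (m / p) else 0) •
        Function.Periodic.qParam 1 τ ^ m) (heckeT1 hp hpN f τ) := by
    intro τ
    rw [coe_heckeT1, Pi.add_apply, heckeU_apply k hp0, slash_heckeDiagMatrix_apply k hp0]
    have h1 := P2MW.S_UpperHalfPlane_qCoeff_heckeT.M4cP1W2.hasSum_average hp0
      (SlashInvariantFormClass.periodic_comp_ofComplex f hΓ) (CuspFormClass.holo f)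
      (ModularFormClass.bdd_at_infty f) τ
    have h2 := P2MW.S_UpperHalfPlane_qCoeff_heckeT.M4cP1W2.hasSum_diag hp0
      (SlashInvariantFormClass.periodic_comp_ofComplex f' hΓ) (CuspFormClass.holo f')
      (ModularFormClass.bdd_at_infty f') k τ
    convert h1.add h2 using 1
    funext m
    rw [smul_eq_mul]
    split_ifs <;> ring
  exact (ModularFormClass.qExpansion_coeff_unique (f := heckeT1 hp hpN f) one_pos hΓ hsum n).symm

end operator

end Fermat.Agent.DS.Neben
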