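/-
PROGRAMME III (S48, Deligne–Serre), kernel DS0d (helper19): the Dirichlet step.

Every unit residue class modulo `N` contains a prime not dividing `N` (Dirichlet's theorem on
primes in arithmetic progressions, Mathlib `Nat.forall_exists_prime_gt_and_eq_mod`); hence a
statement about `(p : ZMod N)` for all primes `p ∤ N` is a statement about all units of `ZMod N`,
and two Dirichlet characters modulo `N` agreeing at all primes `p ∤ N` are equal.
-/
import Mathlib.NumberTheory.LSeries.PrimesInAP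
import Mathlib.NumberTheory.DirichletCharacter.Basic

set_option autoImplicit false

namespace Fermat.Agent.DS.Neben

/-- A prime dividing neither `N` nor ... : a prime `p` with `(p : ZMod N)` a unit does not
divide `N` (for `N ≠ 1`); conversely a prime `p ∤ N` is a unit modulo `N`. -/
theorem isUnit_natCast_of_prime_of_not_dvd {N p : ℕ} (hp : p.Prime) (hpN : ¬ p ∣ N) :
    IsUnit ((p : ℕ) : ZMod N) := by
  rw [ZMod.isUnit_iff_coprime]
  exact (Nat.Prime.coprime_iff_not_dvd hp).mpr hpN

/-- **DS0d.** Every unit class modulo `N` contains a prime `p ∤ N`, larger than any given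
bound. -/
theorem exists_prime_gt_not_dvd_natCast_eq {N : ℕ} [NeZero N] (d : (ZMod N)ˣ) (B : ℕ) :
    ∃ p : ℕ, B < p ∧ p.Prime ∧ ¬ p ∣ N ∧ ((p : ZMod N) = d) := by
  obtain ⟨p, hpB, hp, hpd⟩ :=
    Nat.forall_exists_prime_gt_and_eq_mod (q := N) (a := (d : ZMod N)) d.isUnit (max B N)
  refine ⟨p, lt_of_le_of_lt (le_max_left _ _) hpB, hp, ?_, hpd⟩
  intro hdvd
  have hN : 0 < N := Nat.pos_of_ne_zero (NeZero.ne N)
  have := Nat.le_of_dvd hN hdvd
  exact absurd (lt_of_le_of_lt (le_max_right B N) hpB) (not_lt.mpr this)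

/-- **DS0d.** Every unit class modulo `N` contains a prime `p ∤ N`. -/
theorem exists_prime_not_dvd_natCast_eq {N : ℕ} [NeZero N] (d : (ZMod N)ˣ) :
    ∃ p : ℕ, p.Prime ∧ ¬ p ∣ N ∧ ((p : ZMod N) = d) := by
  obtain ⟨p, -, hp, hpN, hpd⟩ := exists_prime_gt_not_dvd_natCast_eq d 0
  exact ⟨p, hp, hpN, hpd⟩

/-- A predicate on `ZMod N` that holds at (the classes of) all primes `p ∤ N` holds at all
units. -/
theorem forall_units_of_forall_prime {N : ℕ} [NeZero N] {P : ZMod N → Prop}
    (h : ∀ p : ℕ, p.Prime → ¬ p ∣ N → P (p : ZMod N)) (d : (ZMod N)ˣ) : P (d : ZMod N) := by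
  obtain ⟨p, hp, hpN, hpd⟩ := exists_prime_not_dvd_natCast_eq d
  rw [← hpd]
  exact h p hp hpN

/-- **DS0d, character form.** Two Dirichlet characters modulo `N` which agree at all primes
`p ∤ N` are equal. -/
theorem dirichletCharacter_ext_of_prime {R : Type*} [CommMonoidWithZero R] {N : ℕ} [NeZero N]
    {χ ψ : DirichletCharacter R N}
    (h : ∀ p : ℕ, p.Prime → ¬ p ∣ N → χ (p : ZMod N) = ψ (p : ZMod N)) : χ = ψ := by
  apply MulChar.ext
  intro d
  exact forall_units_of_forall_prime (P := fun x => χ x = ψ x) h d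

/-- **DS0d, contrapositive form.** Two distinct Dirichlet characters modulo `N` differ at some
prime `p ∤ N`. -/
theorem exists_prime_ne_of_ne {R : Type*} [CommMonoidWithZero R] {N : ℕ} [NeZero N]
    {χ ψ : DirichletCharacter R N} (hne : χ ≠ ψ) :
    ∃ p : ℕ, p.Prime ∧ ¬ p ∣ N ∧ χ (p : ZMod N) ≠ ψ (p : ZMod N) := by
  by_contra hcon
  push Not at hcon
  exact hne (dirichletCharacter_ext_of_prime hcon)

end Fermat.Agent.DS.Neben
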