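/-
PROGRAMME III (S48, Deligne–Serre), kernel DS0c (helper19), part 1: group theory.

Stabilisers of functions on the upper half plane under the weight-`k` slash action, the matrices
`δ = diag(p,1)`, and the two conjugation facts about `Γ₁(N)` (`p ∤ N`) used by the `V_p`-lemma:

* `conj_dgInv_mem`: `δ⁻¹ γ δ ∈ ⟨Γ₁(N), [[1,1/p],[0,1]]⟩` for `γ ∈ Γ₁(N)`;
* `conj_dg_eq`: `δ γ δ⁻¹ = γ₀ (δ⁻¹ γ' δ) γ₀⁻¹` with `γ₀, γ' ∈ Γ₁(N)`, for `γ ∈ Γ₁(N)`.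
-/
import Mathlib.NumberTheory.ModularForms.CongruenceSubgroups
import Mathlib.NumberTheory.ModularForms.SlashActions
import Mathlib.NumberTheory.ModularForms.Cusps
import Mathlib.Data.Nat.Prime.Int

set_option autoImplicit false

open scoped MatrixGroups ModularForm
open Matrix Matrix.SpecialLinearGroup UpperHalfPlane CongruenceSubgroup

namespace Fermat.Agent.DS.Neben

noncomputable section

/-- The stabiliser of a function under the weight-`k` slash action of `GL₂(ℝ)`. -/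
def slashStab (k : ℤ) (F : ℍ → ℂ) : Subgroup (GL (Fin 2) ℝ) where
  carrier := {γ | F ∣[k] γ = F}
  one_mem' := by simp
  mul_mem' := by
    intro a b ha hb
    change F ∣[k] a = F at ha
    change F ∣[k] b = F at hb
    change F ∣[k] (a * b) = F
    rw [SlashAction.slash_mul, ha, hb]
  inv_mem' := by
    intro a ha
    change F ∣[k] a = F at ha
    change F ∣[k] a⁻¹ = F
    conv_lhs => rw [← ha]
    rw [← SlashAction.slash_mul, mul_inv_cancel, SlashAction.slash_one]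

theorem mem_slashStab {k : ℤ} {F : ℍ → ℂ} {γ : GL (Fin 2) ℝ} :
    γ ∈ slashStab k F ↔ F ∣[k] γ = F := Iff.rfl

/-- The stabiliser of a translate is the conjugate of the stabiliser. -/
theorem mem_slashStab_slash {k : ℤ} {F : ℍ → ℂ} {A x : GL (Fin 2) ℝ} :
    x ∈ slashStab k (F ∣[k] A) ↔ A * x * A⁻¹ ∈ slashStab k F := by
  rw [mem_slashStab, mem_slashStab, ← SlashAction.slash_mul]
  constructor
  · intro h
    rw [SlashAction.slash_mul, h, ← SlashAction.slash_mul, mul_inv_cancel, SlashAction.slash_one]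
  · intro h
    have : (F ∣[k] (A * x * A⁻¹)) ∣[k] A = F ∣[k] A := by rw [h]
    rwa [← SlashAction.slash_mul, inv_mul_cancel_right] at this

/-- `diag(x, y)` as an element of `GL₂(ℝ)`. -/
def dg (x y : ℝ) (hx : x ≠ 0) (hy : y ≠ 0) : GL (Fin 2) ℝ :=
  GeneralLinearGroup.mkOfDetNeZero !![x, 0; 0, y] (by simp [Matrix.det_fin_two, hx, hy])

theorem dg_val (x y : ℝ) (hx : x ≠ 0) (hy : y ≠ 0) :
    ((dg x y hx hy : GL (Fin 2) ℝ) : Matrix (Fin 2) (Fin 2) ℝ) = !![x, 0; 0, y] := rfl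

theorem mat2_ext {x1 x2 x3 x4 y1 y2 y3 y4 : ℝ} (h1 : x1 = y1) (h2 : x2 = y2) (h3 : x3 = y3)
    (h4 : x4 = y4) : !![x1, x2; x3, x4] = !![y1, y2; y3, y4] := by
  subst h1 h2 h3 h4; rfl

theorem mapGL_val (γ : SL(2, ℤ)) :
    ((mapGL ℝ γ : GL (Fin 2) ℝ) : Matrix (Fin 2) (Fin 2) ℝ) =
      !![((γ.1 0 0 : ℤ) : ℝ), ((γ.1 0 1 : ℤ) : ℝ); ((γ.1 1 0 : ℤ) : ℝ), ((γ.1 1 1 : ℤ) : ℝ)] := by
  ext i j
  fin_cases i <;> fin_cases j <;> simp [mapGL_coe_matrix]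

theorem urh_val (x : ℝ) :
    ((GeneralLinearGroup.upperRightHom x : GL (Fin 2) ℝ) : Matrix (Fin 2) (Fin 2) ℝ) =
      !![1, x; 0, 1] := rfl

theorem val_eq_mat2 (A : GL (Fin 2) ℝ) :
    (A : Matrix (Fin 2) (Fin 2) ℝ) = !![A.1 0 0, A.1 0 1; A.1 1 0, A.1 1 1] := by
  ext i j
  fin_cases i <;> fin_cases j <;> rfl

/-- Scalar matrices are central. -/
theorem dg_scalar_comm (x : ℝ) (hx : x ≠ 0) (A : GL (Fin 2) ℝ) :
    dg x x hx hx * A = A * dg x x hx hx := by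
  apply Units.ext
  rw [Units.val_mul, Units.val_mul, dg_val, val_eq_mat2 A]
  simp only [Matrix.mul_fin_two]
  apply mat2_ext <;> ring

theorem dg_mul (x y x' y' : ℝ) (hx : x ≠ 0) (hy : y ≠ 0) (hx' : x' ≠ 0) (hy' : y' ≠ 0) :
    dg x y hx hy * dg x' y' hx' hy' =
      dg (x * x') (y * y') (mul_ne_zero hx hx') (mul_ne_zero hy hy') := by
  apply Units.ext
  simp only [Units.val_mul, dg_val, Matrix.mul_fin_two]
  apply mat2_ext <;> ring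

/-- Second matrix identity. -/
theorem E3 (p : ℕ) (hp : (p : ℝ) ≠ 0) (γ0 : SL(2, ℤ)) (a1 : ℤ) (ha : γ0.1 0 0 = p * a1) :
    ∃ η : SL(2, ℤ), η.1 1 0 = γ0.1 1 0 ∧
      mapGL ℝ η * dg p 1 hp one_ne_zero = dg 1 p one_ne_zero hp * mapGL ℝ γ0 := by
  have hdet := γ0.det_coe
  rw [Matrix.det_fin_two] at hdet
  refine ⟨⟨!![a1, γ0.1 0 1; γ0.1 1 0, p * γ0.1 1 1], ?_⟩, rfl, ?_⟩
  · rw [Matrix.det_fin_two]
    simp only [Matrix.of_apply, Matrix.cons_val', Matrix.cons_val_zero, Matrix.cons_val_one,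
      Matrix.empty_val', Matrix.cons_val_fin_one]
    rw [ha] at hdet
    linear_combination hdet
  · apply Units.ext
    have haR : ((γ0.1 0 0 : ℤ) : ℝ) = p * a1 := by exact_mod_cast ha
    simp only [Units.val_mul, mapGL_val, dg_val, Matrix.mul_fin_two]
    apply mat2_ext
    · simp [haR]; ring
    · simp
    · simp [mul_comm]
    · simp
theorem exists_Gamma1_dvd (N p : ℕ) (h : Nat.Coprime p N) :
    ∃ γ0 ∈ Gamma1 N, ∃ a1 : ℤ, γ0.1 0 0 = p * a1 := by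
  obtain ⟨u, v, huv⟩ := Nat.isCoprime_iff_coprime.mpr h
  refine ⟨⟨!![1 - v * N, - v ^ 2 * N; N, 1 + v * N], ?_⟩, ?_, u, ?_⟩
  · rw [Matrix.det_fin_two]
    simp only [Matrix.of_apply, Matrix.cons_val', Matrix.cons_val_zero, Matrix.cons_val_one,
      Matrix.empty_val', Matrix.cons_val_fin_one]
    ring
  · rw [Gamma1_mem]
    simp
  · simp only [Matrix.of_apply, Matrix.cons_val', Matrix.cons_val_zero,
      Matrix.empty_val', Matrix.cons_val_fin_one]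
    linear_combination -huv

theorem Gamma1_conj_mem {N : ℕ} {η γ : SL(2, ℤ)} (hη : η ∈ Gamma0 N) (hγ : γ ∈ Gamma1 N) :
    η⁻¹ * γ * η ∈ Gamma1 N := by
  have hγ0 : γ ∈ Gamma0 N := Gamma1_in_Gamma0 N hγ
  have h1 : (⟨γ, hγ0⟩ : Gamma0 N) ∈ Gamma1' N := by
    rw [Gamma1_to_Gamma0_mem]
    exact (Gamma1_mem N γ).mp hγ
  have hn : (Gamma1' N).Normal := by
    unfold Gamma1'
    exact MonoidHom.normal_ker _
  have h2 := hn.conj_mem _ h1 (⟨η, hη⟩ : Gamma0 N)⁻¹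
  rw [Gamma1_to_Gamma0_mem] at h2
  rw [Gamma1_mem]
  simpa using h2

/-- The general form of the first matrix identity. -/
theorem E2 (p : ℕ) (hp : (p : ℝ) ≠ 0) (γ : SL(2, ℤ)) (j m q : ℤ)
    (hq : (γ.1 0 0 + j * γ.1 1 0) * m + (γ.1 0 1 + j * γ.1 1 1) = p * q) :
    ∃ γ'' : SL(2, ℤ), γ''.1 0 0 = γ.1 0 0 + j * γ.1 1 0 ∧ γ''.1 1 0 = p * γ.1 1 0 ∧
      γ''.1 1 1 = γ.1 1 0 * m + γ.1 1 1 ∧
      GeneralLinearGroup.upperRightHom (j : ℝ) * mapGL ℝ γ * dg p 1 hp one_ne_zero *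
          GeneralLinearGroup.upperRightHom ((m : ℝ) / p) =
        dg p 1 hp one_ne_zero * mapGL ℝ γ'' := by
  have hdet := γ.det_coe
  rw [Matrix.det_fin_two] at hdet
  refine ⟨⟨!![γ.1 0 0 + j * γ.1 1 0, q; p * γ.1 1 0, γ.1 1 0 * m + γ.1 1 1], ?_⟩,
    rfl, rfl, rfl, ?_⟩
  · rw [Matrix.det_fin_two]
    simp only [Matrix.of_apply, Matrix.cons_val', Matrix.cons_val_zero, Matrix.cons_val_one,
      Matrix.empty_val', Matrix.cons_val_fin_one]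
    linear_combination hdet + γ.1 1 0 * hq
  · apply Units.ext
    have hqR : (((γ.1 0 0 : ℤ) : ℝ) + j * ((γ.1 1 0 : ℤ) : ℝ)) * m +
        (((γ.1 0 1 : ℤ) : ℝ) + j * ((γ.1 1 1 : ℤ) : ℝ)) = p * q := by exact_mod_cast hq
    simp only [Units.val_mul, mapGL_val, dg_val, urh_val, Matrix.mul_fin_two]
    apply mat2_ext
    · simp; ring
    · simp; field_simp; linarith
    · simp [mul_comm]
    · simp; field_simp

theorem grp_identity {G : Type*} [Group G] (δ ε z γ γ0 η : G) (hz : ∀ x, z * x = x * z)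
    (hδε : δ * ε = z) (hη : η * δ = ε * γ0) :
    δ * γ * δ⁻¹ = γ0 * (δ⁻¹ * (η⁻¹ * γ * η) * δ) * γ0⁻¹ := by
  have h1 : η * δ * γ0⁻¹ = ε := by rw [hη, mul_inv_cancel_right]
  have hε : ε = δ⁻¹ * z := by rw [← hδε, inv_mul_cancel_left]
  have h2 : γ0 * (δ⁻¹ * (η⁻¹ * γ * η) * δ) * γ0⁻¹ = (η * δ * γ0⁻¹)⁻¹ * γ * (η * δ * γ0⁻¹) := by
    group
  rw [h2, h1, hε]
  have h3 : (δ⁻¹ * z)⁻¹ * γ * (δ⁻¹ * z) = z⁻¹ * (z * (δ * γ * δ⁻¹)) := by
    rw [hz (δ * γ * δ⁻¹)]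
    group
  rw [h3, inv_mul_cancel_left]

theorem conj_dg_eq {N p : ℕ} (hp : (p : ℝ) ≠ 0) (hpN : Nat.Coprime p N) {γ : SL(2, ℤ)}
    (hγ : γ ∈ Gamma1 N) :
    ∃ γ0 ∈ Gamma1 N, ∃ γ' ∈ Gamma1 N,
      dg p 1 hp one_ne_zero * mapGL ℝ γ * (dg p 1 hp one_ne_zero)⁻¹ =
        mapGL ℝ γ0 * ((dg p 1 hp one_ne_zero)⁻¹ * mapGL ℝ γ' * dg p 1 hp one_ne_zero) *
          (mapGL ℝ γ0)⁻¹ := by
  obtain ⟨γ0, hγ0, a1, ha1⟩ := exists_Gamma1_dvd N p hpN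
  obtain ⟨η, hη10, hη⟩ := E3 p hp γ0 a1 ha1
  have hηmem : η ∈ Gamma0 N := by
    rw [Gamma0_mem, hη10]
    exact ((Gamma1_mem N γ0).mp hγ0).2.2
  refine ⟨γ0, hγ0, η⁻¹ * γ * η, Gamma1_conj_mem hηmem hγ, ?_⟩
  have hδε : dg p 1 hp one_ne_zero * dg 1 p one_ne_zero hp = dg p p hp hp := by
    rw [dg_mul]
    congr 1 <;> ring
  have := grp_identity (dg p 1 hp one_ne_zero) (dg 1 p one_ne_zero hp) (dg p p hp hp)
    (mapGL ℝ γ) (mapGL ℝ γ0) (mapGL ℝ η) (dg_scalar_comm p hp) hδε hη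
  rw [this, map_mul, map_mul, map_inv]

theorem urh_mul_dg (p : ℕ) (hp : (p : ℝ) ≠ 0) (x : ℝ) :
    GeneralLinearGroup.upperRightHom x * dg p 1 hp one_ne_zero =
      dg p 1 hp one_ne_zero * GeneralLinearGroup.upperRightHom (x / p) := by
  apply Units.ext
  simp only [Units.val_mul, dg_val, urh_val, Matrix.mul_fin_two]
  apply mat2_ext
  · simp
  · simp; field_simp
  · simp
  · simp

theorem urh_div_mem {S : Subgroup (GL (Fin 2) ℝ)} {p : ℕ}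
    (hR : GeneralLinearGroup.upperRightHom ((1 : ℝ) / p) ∈ S) (x : ℤ) :
    GeneralLinearGroup.upperRightHom ((x : ℝ) / p) ∈ S := by
  have : ((x : ℝ) / p) = x • ((1 : ℝ) / p) := by
    rw [zsmul_eq_mul]; ring
  rw [this, AddChar.map_zsmul_eq_zpow]
  exact Subgroup.zpow_mem _ hR _

theorem conj_dgInv_mem {N p : ℕ} (hpp : p.Prime) {S : Subgroup (GL (Fin 2) ℝ)}
    (hS : ∀ γ ∈ Gamma1 N, mapGL ℝ γ ∈ S)
    (hR : GeneralLinearGroup.upperRightHom ((1 : ℝ) / p) ∈ S) {γ : SL(2, ℤ)}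
    (hγ : γ ∈ Gamma1 N) (hp : (p : ℝ) ≠ 0) :
    (dg p 1 hp one_ne_zero)⁻¹ * mapGL ℝ γ * dg p 1 hp one_ne_zero ∈ S := by
  have hdet := γ.det_coe
  rw [Matrix.det_fin_two] at hdet
  have hpZ : Prime (p : ℤ) := Nat.prime_iff_prime_int.mp hpp
  -- choose `j` with `p ∤ a + j c`
  obtain ⟨j, hj⟩ : ∃ j : ℤ, ¬ (p : ℤ) ∣ γ.1 0 0 + j * γ.1 1 0 := by
    by_cases hpa : (p : ℤ) ∣ γ.1 0 0
    · refine ⟨1, fun h => ?_⟩
      have hc : (p : ℤ) ∣ γ.1 1 0 := by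
        have := (Int.dvd_add_right hpa).mp h
        simpa using this
      have : (p : ℤ) ∣ 1 := by
        rw [← hdet]
        exact dvd_sub (Dvd.dvd.mul_right hpa _) (Dvd.dvd.mul_left hc _)
      exact hpZ.not_dvd_one this
    · exact ⟨0, by simpa using hpa⟩
  obtain ⟨u, v, huv⟩ := (hpZ.coprime_iff_not_dvd).mpr hj
  obtain ⟨γ'', h00, h10, h11, hid⟩ := E2 p hp γ j (-(γ.1 0 1 + j * γ.1 1 1) * v)
    ((γ.1 0 1 + j * γ.1 1 1) * u) (by linear_combination (-(γ.1 0 1 + j * γ.1 1 1)) * huv)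
  have hγ'' : γ'' ∈ Gamma1 N := by
    obtain ⟨g00, g11, g10⟩ := (Gamma1_mem N γ).mp hγ
    rw [Gamma1_mem, h00, h10, h11]
    push_cast
    simp [g00, g11, g10]
  have hmem : mapGL ℝ γ'' ∈ S := hS _ hγ''
  -- rearrange
  set δ := dg p 1 hp one_ne_zero with hδ
  set Rj := GeneralLinearGroup.upperRightHom (j : ℝ) with hRj
  set Rm := GeneralLinearGroup.upperRightHom
    (((-(γ.1 0 1 + j * γ.1 1 1) * v : ℤ) : ℝ) / p) with hRm
  have h1 : δ⁻¹ * Rj * δ = GeneralLinearGroup.upperRightHom ((j : ℝ) / p) := by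
    rw [mul_assoc, hRj, hδ, urh_mul_dg, inv_mul_cancel_left]
  have key : δ⁻¹ * mapGL ℝ γ * δ =
      (GeneralLinearGroup.upperRightHom ((j : ℝ) / p))⁻¹ * mapGL ℝ γ'' * Rm⁻¹ := by
    calc δ⁻¹ * mapGL ℝ γ * δ
        = (δ⁻¹ * Rj * δ)⁻¹ * (δ⁻¹ * (Rj * mapGL ℝ γ * δ * Rm)) * Rm⁻¹ := by group
      _ = (GeneralLinearGroup.upperRightHom ((j : ℝ) / p))⁻¹ * mapGL ℝ γ'' * Rm⁻¹ := by
          rw [hid, h1]; group
  rw [key]
  exact S.mul_mem (S.mul_mem (S.inv_mem (urh_div_mem hR j)) hmem) (S.inv_mem (urh_div_mem hR _))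


/-! ### Stabiliser steps -/

section steps

variable {N p : ℕ} {k : ℤ}

/-- (F2) If `g` is invariant under `Γ₁(N)` and under `τ ↦ τ + 1/p`, then `g ∣ δ⁻¹` is invariant
under `Γ₁(N)` (`δ = diag(p,1)`, `p` prime). -/
theorem stab_step_inv (hpp : p.Prime) (hp : (p : ℝ) ≠ 0) {g : ℍ → ℂ}
    (hΓ : ∀ γ ∈ Gamma1 N, mapGL ℝ γ ∈ slashStab k g)
    (hR : GeneralLinearGroup.upperRightHom ((1 : ℝ) / p) ∈ slashStab k g) :
    ∀ γ ∈ Gamma1 N, mapGL ℝ γ ∈ slashStab k (g ∣[k] (dg p 1 hp one_ne_zero)⁻¹) := by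
  intro γ hγ
  rw [mem_slashStab_slash, inv_inv]
  exact conj_dgInv_mem hpp hΓ hR hγ hp

/-- (F3) If `H` and `H ∣ δ` are invariant under `Γ₁(N)`, so is `H ∣ δ ∣ δ` (`p` prime to `N`). -/
theorem stab_step (hp : (p : ℝ) ≠ 0) (hpN : Nat.Coprime p N) {H : ℍ → ℂ}
    (h0 : ∀ γ ∈ Gamma1 N, mapGL ℝ γ ∈ slashStab k H)
    (h1 : ∀ γ ∈ Gamma1 N, mapGL ℝ γ ∈ slashStab k (H ∣[k] dg p 1 hp one_ne_zero)) :
    ∀ γ ∈ Gamma1 N, mapGL ℝ γ ∈
      slashStab k ((H ∣[k] dg p 1 hp one_ne_zero) ∣[k] dg p 1 hp one_ne_zero) := by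
  intro γ hγ
  rw [mem_slashStab_slash]
  obtain ⟨γ0, hγ0, γ', hγ', heq⟩ := conj_dg_eq hp hpN hγ
  rw [heq]
  refine mul_mem (mul_mem (h1 γ0 hγ0) ?_) (inv_mem (h1 γ0 hγ0))
  rw [mem_slashStab_slash]
  have : dg p 1 hp one_ne_zero *
      ((dg p 1 hp one_ne_zero)⁻¹ * mapGL ℝ γ' * dg p 1 hp one_ne_zero) *
        (dg p 1 hp one_ne_zero)⁻¹ = mapGL ℝ γ' := by group
  rw [this]
  exact h0 γ' hγ'

/-- All translates `g ∣ δ^j` of a `Γ₁(N)`-invariant, `1/p`-periodic function are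
`Γ₁(N)`-invariant (`p` a prime not dividing `N`). -/
theorem stab_pow (hpp : p.Prime) (hp : (p : ℝ) ≠ 0) (hpN : Nat.Coprime p N) {g : ℍ → ℂ}
    (hΓ : ∀ γ ∈ Gamma1 N, mapGL ℝ γ ∈ slashStab k g)
    (hR : GeneralLinearGroup.upperRightHom ((1 : ℝ) / p) ∈ slashStab k g) (j : ℕ) :
    ∀ γ ∈ Gamma1 N, mapGL ℝ γ ∈ slashStab k (g ∣[k] ((dg p 1 hp one_ne_zero) ^ j)) := by
  set δ := dg p 1 hp one_ne_zero with hδ
  set h : ℍ → ℂ := g ∣[k] δ⁻¹ with hh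
  have hsucc : ∀ i : ℕ, h ∣[k] (δ ^ (i + 1)) = (h ∣[k] (δ ^ i)) ∣[k] δ := by
    intro i
    rw [pow_succ, SlashAction.slash_mul]
  have hP : ∀ i : ℕ, (∀ γ ∈ Gamma1 N, mapGL ℝ γ ∈ slashStab k (h ∣[k] (δ ^ i))) ∧
      (∀ γ ∈ Gamma1 N, mapGL ℝ γ ∈ slashStab k (h ∣[k] (δ ^ (i + 1)))) := by
    intro i
    induction i with
    | zero =>
      constructor
      · rw [pow_zero, SlashAction.slash_one]
        exact stab_step_inv hpp hp hΓ hR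
      · rw [zero_add, pow_one, hh, ← SlashAction.slash_mul, inv_mul_cancel, SlashAction.slash_one]
        exact hΓ
    | succ i ih =>
      refine ⟨ih.2, ?_⟩
      rw [hsucc (i + 1), hsucc i]
      have h1 := ih.2
      rw [hsucc i] at h1
      exact stab_step hp hpN ih.1 h1
  have : g ∣[k] (δ ^ j) = h ∣[k] (δ ^ (j + 1)) := by
    rw [hh, ← SlashAction.slash_mul, pow_succ', inv_mul_cancel_left]
  rw [this]
  exact (hP j).2

end steps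

end

end Fermat.Agent.DS.Neben
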