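/-
PROGRAMME III (S48, Deligne–Serre), kernel DS0c (helper19), part 2: the `V_p`-lemma.

A modular form `g` of weight `k` on `Γ₁(N)` whose `q`-expansion at `∞` has vanishing constant
term and is supported on the multiples of a prime `p ∤ N` is zero.  In particular a cusp form on
`Γ₁(N)` with `q`-expansion supported on `pℕ`, `p ∤ N`, vanishes
(`eq_zero_of_qCoeff_eq_zero_of_not_dvd`).

Proof: all translates `g ∣ diag(p,1)^j` are again modular forms on `Γ₁(N)` (group theory of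
`VpGroup.lean`), and their order of vanishing at `∞` is `≥ p^j`, which contradicts the Sturm bound
(`ModularForm.sturm_bound_of_isArithmetic`) for `j` large.
-/
import Fermat.Agent.DS.Neben.VpGroup
import Mathlib.NumberTheory.ModularForms.QExpansion
import Mathlib.NumberTheory.ModularForms.Basic
import Fermat.Prelude.Thm_ModularForm_sturm_bound_of_isArithmetic
import Fermat.Prelude.Def_FLTPrelim_Modularity

set_option autoImplicit false

open scoped MatrixGroups ModularForm Real Pointwise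
open Matrix Matrix.SpecialLinearGroup UpperHalfPlane CongruenceSubgroup ModularForm Function

namespace Fermat.Agent.DS.Neben

noncomputable section

local notation "𝕢" => Periodic.qParam

/-! ### Slash by translations and by `diag(m,1)` -/

theorem slash_urh_apply (k : ℤ) (F : ℍ → ℂ) (x : ℝ) (τ : ℍ) :
    (F ∣[k] GeneralLinearGroup.upperRightHom x) τ = F (x +ᵥ τ) := by
  have : GeneralLinearGroup.upperRightHom x • τ = x +ᵥ τ := by
    ext
    simp [σ, num, denom, coe_vadd, UpperHalfPlane.coe_smul, num, add_comm]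
  rw [slash_apply, this]
  simp [σ, denom, GeneralLinearGroup.val_det_apply, denom]

theorem dg_smul_coe (m : ℝ) (hm : 0 < m) (τ : ℍ) :
    ((dg m 1 hm.ne' one_ne_zero • τ : ℍ) : ℂ) = m * τ := by
  simp [σ, num, denom, UpperHalfPlane.coe_smul, dg_val, hm]

theorem slash_dg_apply (k : ℤ) (F : ℍ → ℂ) (m : ℝ) (hm : 0 < m) (τ : ℍ) :
    (F ∣[k] dg m 1 hm.ne' one_ne_zero) τ =
      F (dg m 1 hm.ne' one_ne_zero • τ) * (m : ℂ) ^ (k - 1) := by
  rw [slash_apply]
  simp [σ, denom, GeneralLinearGroup.val_det_apply, dg_val, hm, abs_of_pos hm]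

/-! ### `q`-expansions on `Γ₁(N)` -/

theorem one_mem_strictPeriods_Gamma1 (N : ℕ) :
    (1 : ℝ) ∈ (Gamma1 N : Subgroup (GL (Fin 2) ℝ)).strictPeriods := by
  rw [strictPeriods_Gamma1]
  exact AddSubgroup.mem_zmultiples 1

theorem hasSum_qCoeff {N : ℕ} [NeZero N] {k : ℤ} {F : Type*} [FunLike F ℍ ℂ]
    [ModularFormClass F (Gamma1 N : Subgroup (GL (Fin 2) ℝ)) k] (g : F) (τ : ℍ) :
    HasSum (fun n ↦ ModularFormClass.qCoeff g n * 𝕢 1 τ ^ n) (g τ) :=
  ModularForm.hasSum_qExpansion g one_pos (one_mem_strictPeriods_Gamma1 N) τ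

theorem qParam_vadd (x : ℝ) (τ : ℍ) :
    𝕢 1 ((x +ᵥ τ : ℍ) : ℂ) = Complex.exp (2 * π * Complex.I * x) * 𝕢 1 τ := by
  simp only [Periodic.qParam, coe_vadd, ← Complex.exp_add]
  congr 1
  push_cast
  ring

theorem exp_dvd (p n : ℕ) (hp : p ≠ 0) (hn : p ∣ n) :
    Complex.exp (2 * π * Complex.I * ((1 : ℝ) / p : ℝ)) ^ n = 1 := by
  obtain ⟨m, rfl⟩ := hn
  rw [← Complex.exp_nat_mul]
  have hpC : (p : ℂ) ≠ 0 := by exact_mod_cast hp
  have : ((p * m : ℕ) : ℂ) * (2 * π * Complex.I * ((1 : ℝ) / p : ℝ)) =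
      m * (2 * π * Complex.I) := by
    push_cast
    field_simp
  rw [this]
  exact Complex.exp_nat_mul_two_pi_mul_I m

/-- A form whose `q`-expansion is supported on multiples of `p` is `1/p`-periodic. -/
theorem urh_mem_slashStab_of_support {N : ℕ} [NeZero N] {k : ℤ} {F : Type*} [FunLike F ℍ ℂ]
    [ModularFormClass F (Gamma1 N : Subgroup (GL (Fin 2) ℝ)) k] (g : F) {p : ℕ} (hp : p ≠ 0)
    (h : ∀ n : ℕ, ¬ p ∣ n → ModularFormClass.qCoeff g n = 0) :
    GeneralLinearGroup.upperRightHom ((1 : ℝ) / p) ∈ slashStab k (g : ℍ → ℂ) := by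
  rw [mem_slashStab]
  funext τ
  rw [slash_urh_apply]
  refine (hasSum_qCoeff g _).unique ?_
  convert hasSum_qCoeff g τ using 1
  funext n
  by_cases hn : p ∣ n
  · rw [qParam_vadd, mul_pow, exp_dvd p n hp hn, one_mul]
  · rw [h n hn, zero_mul, zero_mul]

/-! ### Translates as modular forms on `Γ₁(N)` -/

/-- A translate of a modular form on `Γ₁(N)` by a rational matrix which happens to be
`Γ₁(N)`-invariant is a modular form on `Γ₁(N)`. -/
def translateForm {N : ℕ} [NeZero N] {k : ℤ} {F : Type*} [FunLike F ℍ ℂ]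
    [ModularFormClass F (Gamma1 N : Subgroup (GL (Fin 2) ℝ)) k] (g : F)
    (D : GL (Fin 2) ℝ) (DQ : GL (Fin 2) ℚ) (hD : D = DQ.map (Rat.castHom ℝ))
    (hinv : ∀ γ ∈ Gamma1 N, mapGL ℝ γ ∈ slashStab k ((g : ℍ → ℂ) ∣[k] D)) :
    ModularForm (Gamma1 N : Subgroup (GL (Fin 2) ℝ)) k where
  toFun := (g : ℍ → ℂ) ∣[k] D
  slash_action_eq' := by
    intro γ hγ
    obtain ⟨γ', hγ', rfl⟩ := Subgroup.mem_map.mp hγ
    exact mem_slashStab.mp (hinv γ' hγ')
  holo' := (ModularFormClass.holo g).slash k D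
  bdd_at_cusps' := by
    intro c hc
    rw [← OnePoint.IsBoundedAt.smul_iff]
    apply ModularFormClass.bdd_at_cusps g
    have hc1 : IsCusp (D • c) (ConjAct.toConjAct D • (Gamma1 N : Subgroup (GL (Fin 2) ℝ))) :=
      hc.smul D
    have : (ConjAct.toConjAct D • (Gamma1 N : Subgroup (GL (Fin 2) ℝ))).IsArithmetic := by
      rw [hD]
      exact Subgroup.IsArithmetic.conj _ DQ
    have hc2 : IsCusp (D • c) 𝒮ℒ := (Subgroup.IsArithmetic.isCusp_iff_isCusp_SL2Z _).mp hc1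
    exact (Subgroup.IsArithmetic.isCusp_iff_isCusp_SL2Z _).mpr hc2


/-! ### `q`-expansion of translates -/

theorem dg_congr {x y x' y' : ℝ} (hx : x ≠ 0) (hy : y ≠ 0) (hx' : x' ≠ 0) (hy' : y' ≠ 0)
    (h1 : x = x') (h2 : y = y') : dg x y hx hy = dg x' y' hx' hy' := by
  subst h1 h2; rfl

theorem dg_pow (m : ℝ) (hm : m ≠ 0) (j : ℕ) :
    (dg m 1 hm one_ne_zero) ^ j = dg (m ^ j) 1 (pow_ne_zero j hm) one_ne_zero := by
  induction j with
  | zero =>
    rw [pow_zero]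
    apply Units.ext
    simp only [dg_val, Units.val_one, pow_zero]
    exact (Matrix.one_fin_two (α := ℝ))
  | succ j ih =>
    rw [pow_succ, ih, dg_mul]
    exact dg_congr _ _ _ _ (pow_succ m j).symm (one_mul 1)

/-- `diag(x,1)` over `ℚ`. -/
def dgQ (x : ℚ) (hx : x ≠ 0) : GL (Fin 2) ℚ :=
  GeneralLinearGroup.mkOfDetNeZero !![x, 0; 0, 1] (by simp [Matrix.det_fin_two, hx])

theorem dgQ_map (x : ℚ) (hx : x ≠ 0) :
    (dgQ x hx).map (Rat.castHom ℝ) = dg (x : ℝ) 1 (by exact_mod_cast hx) one_ne_zero := by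
  apply Units.ext
  ext i j
  fin_cases i <;> fin_cases j <;> simp [dgQ, dg_val, GeneralLinearGroup.mkOfDetNeZero]

theorem qParam_dg_smul (m : ℕ) (hm : 0 < (m : ℝ)) (τ : ℍ) :
    𝕢 1 ((dg m 1 hm.ne' one_ne_zero • τ : ℍ) : ℂ) = 𝕢 1 τ ^ m := by
  rw [dg_smul_coe m hm τ]
  simp only [Periodic.qParam]
  rw [← Complex.exp_nat_mul]
  congr 1
  push_cast
  ring

/-- The `q`-expansion of `g ∣ diag(m,1)`. -/
theorem hasSum_slash_dg {N : ℕ} [NeZero N] {k : ℤ} {F : Type*} [FunLike F ℍ ℂ]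
    [ModularFormClass F (Gamma1 N : Subgroup (GL (Fin 2) ℝ)) k] (g : F) (m : ℕ)
    (hm : 0 < (m : ℝ)) (τ : ℍ) :
    HasSum (fun i : ℕ ↦ (if m ∣ i then ModularFormClass.qCoeff g (i / m) * (m : ℂ) ^ (k - 1)
        else 0) • 𝕢 1 τ ^ i) (((g : ℍ → ℂ) ∣[k] dg m 1 hm.ne' one_ne_zero) τ) := by
  have hm0 : m ≠ 0 := by
    rintro rfl
    simp at hm
  rw [slash_dg_apply k g m hm τ]
  have h1 := (hasSum_qCoeff g (dg m 1 hm.ne' one_ne_zero • τ)).mul_right ((m : ℂ) ^ (k - 1))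
  rw [qParam_dg_smul m hm τ] at h1
  have hinj : Function.Injective (fun n : ℕ ↦ m * n) := fun a b hab ↦
    Nat.eq_of_mul_eq_mul_left (Nat.pos_of_ne_zero hm0) hab
  rw [← Function.Injective.hasSum_iff hinj]
  · have hfun : ((fun i : ℕ ↦ (if m ∣ i then
          ModularFormClass.qCoeff g (i / m) * (m : ℂ) ^ (k - 1) else 0) • 𝕢 1 τ ^ i) ∘
        fun n : ℕ ↦ m * n) =
        fun i ↦ ModularFormClass.qCoeff g i * (𝕢 1 τ ^ m) ^ i * (m : ℂ) ^ (k - 1) := by
      funext n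
      simp only [Function.comp_apply, dvd_mul_right, if_true, Nat.mul_div_cancel_left n
        (Nat.pos_of_ne_zero hm0), smul_eq_mul, pow_mul]
      ring
    rw [hfun]
    exact h1
  · intro i hi
    have : ¬ m ∣ i := by
      rintro ⟨n, rfl⟩
      exact hi ⟨n, rfl⟩
    simp [this]


/-- **DS0c (core).** A modular form on `Γ₁(N)` whose `q`-expansion has no constant term and is
supported on the multiples of a prime `p ∤ N` vanishes. -/
theorem coe_eq_zero_of_qCoeff_support {N : ℕ} [NeZero N] {k : ℤ} {F : Type*} [FunLike F ℍ ℂ]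
    [ModularFormClass F (Gamma1 N : Subgroup (GL (Fin 2) ℝ)) k] (g : F) {p : ℕ} (hp : p.Prime)
    (hpN : ¬ p ∣ N) (h0 : ModularFormClass.qCoeff g 0 = 0)
    (h : ∀ n : ℕ, ¬ p ∣ n → ModularFormClass.qCoeff g n = 0) : (g : ℍ → ℂ) = 0 := by
  have hpR : (p : ℝ) ≠ 0 := by exact_mod_cast hp.ne_zero
  have hpQ : (p : ℚ) ≠ 0 := by exact_mod_cast hp.ne_zero
  have hcop : Nat.Coprime p N := (Nat.Prime.coprime_iff_not_dvd hp).mpr hpN
  have hΓ : ∀ γ ∈ Gamma1 N, mapGL ℝ γ ∈ slashStab k (g : ℍ → ℂ) := fun γ hγ ↦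
    mem_slashStab.mpr (SlashInvariantFormClass.slash_action_eq g _ (Subgroup.mem_map_of_mem _ hγ))
  have hR := urh_mem_slashStab_of_support (k := k) g hp.ne_zero h
  set B : ℕ := (k * (Gamma1 N : Subgroup (GL (Fin 2) ℝ)).relIndex 𝒮ℒ).toNat / 12 with hB
  have hinv := stab_pow (k := k) hp hpR hcop hΓ hR B
  have hmpos : 0 < ((p ^ B : ℕ) : ℝ) := by
    exact_mod_cast Nat.pos_of_ne_zero (pow_ne_zero B hp.ne_zero)
  have hDpow : (dg (p : ℝ) 1 hpR one_ne_zero) ^ B =
      dg ((p ^ B : ℕ) : ℝ) 1 hmpos.ne' one_ne_zero := by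
    rw [dg_pow]
    exact dg_congr _ _ _ _ (by push_cast; rfl) rfl
  have hD : (dg (p : ℝ) 1 hpR one_ne_zero) ^ B = ((dgQ p hpQ) ^ B).map (Rat.castHom ℝ) := by
    rw [map_pow, dgQ_map]
    congr 1
  set G : ModularForm (Gamma1 N : Subgroup (GL (Fin 2) ℝ)) k :=
    translateForm g _ _ hD hinv with hG
  have hGcoe : (G : ℍ → ℂ) = (g : ℍ → ℂ) ∣[k] ((dg (p : ℝ) 1 hpR one_ne_zero) ^ B) := rfl
  have hG0 : G = 0 := by
    apply ModularForm.sturm_bound_of_isArithmetic (one_mem_strictPeriods_Gamma1 N)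
    refine lt_of_lt_of_le ?_ (PowerSeries.nat_le_order _ (B + 1) ?_)
    · exact_mod_cast Nat.lt_succ_self B
    · intro i hi
      have hsum : ∀ τ : ℍ, HasSum (fun i : ℕ ↦ (if p ^ B ∣ i then
          ModularFormClass.qCoeff g (i / p ^ B) * ((p ^ B : ℕ) : ℂ) ^ (k - 1) else 0) •
            𝕢 1 τ ^ i) (G τ) := by
        intro τ
        have := hasSum_slash_dg (k := k) g (p ^ B) hmpos τ
        rw [← hDpow] at this
        exact this
      rw [← ModularFormClass.qExpansion_coeff_unique (f := G) one_pos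
        (one_mem_strictPeriods_Gamma1 N) hsum i]
      have hlt : i < p ^ B := lt_of_lt_of_le hi (Nat.succ_le_of_lt (Nat.lt_pow_self hp.one_lt))
      by_cases hdvd : p ^ B ∣ i
      · have hi0 : i = 0 := Nat.eq_zero_of_dvd_of_lt hdvd hlt
        subst hi0
        simp [h0]
      · simp [hdvd]
  have hzero : (g : ℍ → ℂ) ∣[k] ((dg (p : ℝ) 1 hpR one_ne_zero) ^ B) = 0 := by
    rw [← hGcoe, hG0]
    rfl
  exact (SlashAction.slash_eq_zero_iff k _ _).mp hzero

/-- **DS0c (`V_p`-lemma).** A cusp form on `Γ₁(N)` whose `q`-expansion is supported on the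
multiples of a prime `p ∤ N` is zero. -/
theorem eq_zero_of_qCoeff_eq_zero_of_not_dvd {N : ℕ} [NeZero N] {k : ℤ}
    (g : CuspForm (Gamma1 N : Subgroup (GL (Fin 2) ℝ)) k) {p : ℕ} (hp : p.Prime)
    (hpN : ¬ p ∣ N)
    (h : ∀ n : ℕ, ¬ p ∣ n → ModularFormClass.qCoeff g n = 0) : g = 0 := by
  have h0 : ModularFormClass.qCoeff g 0 = 0 := by
    have hper := SlashInvariantFormClass.periodic_comp_ofComplex g (one_mem_strictPeriods_Gamma1 N)
    have han := ModularFormClass.analyticAt_cuspFunction_zero g one_pos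
      (one_mem_strictPeriods_Gamma1 N)
    have := UpperHalfPlane.qExpansion_coeff_zero (f := (g : ℍ → ℂ)) one_pos han hper
    rw [ModularFormClass.qCoeff, this]
    exact (CuspFormClass.zero_at_infty g).valueAtInfty_eq_zero
  have := coe_eq_zero_of_qCoeff_support g hp hpN h0 h
  exact DFunLike.coe_injective this

end

end Fermat.Agent.DS.Neben
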