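/-
PROGRAMME III (S48, Deligne–Serre), kernel DS0 (helper2; consumes helper19's DS0c `V_p`-lemma and
DS0d primes in unit classes): **the nebentypus**.

From the frozen hypotheses of S48 — `f : CuspForm (Gamma1 N) 1`, `a_1 = 1`, and for every prime
`p ∤ N` and every `n`: `a_{pn} + ε(p) [p ∣ n] a_{n/p} = a_p a_n` — we prove

* `heckeT1_eq_smul` : `T_p f = a_p f` (`p ∤ N`);
* `diamond_eq_smul` : `⟨d⟩ f = ε(d) f` for all `d : (ZMod N)ˣ`;
* `nebentypus`      : `f ∣[1] γ = ε(d_γ) f` for all `γ ∈ Γ₀(N)`;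
* `eps_neg_one`     : `ε(-1) = -1`.
-/
import Mathlib
import Fermat.Prelude.Def_FLTPrelim_Modularity
import Fermat.Agent.DS.Neben.HeckeGamma1
import Fermat.Agent.DS.Neben.VpLemma
import Fermat.Agent.DS.Neben.PrimeInClass

set_option autoImplicit false

open scoped MatrixGroups ModularForm Manifold
open Matrix Matrix.SpecialLinearGroup UpperHalfPlane CongruenceSubgroup ModularForm

noncomputable section

namespace Fermat.Agent.DS.Neben

section linear

variable {N : ℕ} {k : ℤ}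

theorem analyticAt_cuspFunction_Gamma1
    (f : CuspForm (Gamma1 N : Subgroup (GL (Fin 2) ℝ)) k) :
    AnalyticAt ℂ (cuspFunction 1 ⇑f) 0 :=
  ModularFormClass.analyticAt_cuspFunction_zero f one_pos (one_mem_strictPeriods_Gamma1' N)

theorem qCoeff_sub (f g : CuspForm (Gamma1 N : Subgroup (GL (Fin 2) ℝ)) k) (n : ℕ) :
    ModularFormClass.qCoeff (⇑(f - g)) n =
      ModularFormClass.qCoeff f n - ModularFormClass.qCoeff g n := by
  unfold ModularFormClass.qCoeff
  rw [FunLike.coe_sub, qExpansion_sub (analyticAt_cuspFunction_Gamma1 f)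
    (analyticAt_cuspFunction_Gamma1 g), map_sub]

theorem qCoeff_smul (c : ℂ) (f : CuspForm (Gamma1 N : Subgroup (GL (Fin 2) ℝ)) k) (n : ℕ) :
    ModularFormClass.qCoeff (⇑(c • f)) n = c * ModularFormClass.qCoeff f n := by
  unfold ModularFormClass.qCoeff
  rw [FunLike.coe_smul, qExpansion_smul (analyticAt_cuspFunction_Gamma1 f), PowerSeries.coeff_smul,
    smul_eq_mul]

theorem eq_of_forall_qCoeff_eq {f g : CuspForm (Gamma1 N : Subgroup (GL (Fin 2) ℝ)) k}
    (h : ∀ n : ℕ, ModularFormClass.qCoeff f n = ModularFormClass.qCoeff g n) : f = g :=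
  P2MW.S_UpperHalfPlane_qCoeff_heckeT.M4cP1W2.eq_of_forall_qCoeff_eq
    (one_mem_strictPeriods_Gamma1' N) h

end linear

section nebentypus

variable {N : ℕ} [NeZero N] (ε : DirichletCharacter ℂ N)
  (f : CuspForm (Gamma1 N : Subgroup (GL (Fin 2) ℝ)) 1)
  (hT : ∀ p : ℕ, p.Prime → ¬ p ∣ N → ∀ n : ℕ,
      ModularFormClass.qCoeff f (p * n) +
          ε (p : ZMod N) * (if p ∣ n then ModularFormClass.qCoeff f (n / p) else 0) =
        ModularFormClass.qCoeff f p * ModularFormClass.qCoeff f n)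

include hT

/-- **`T_p f = a_p f`** for every prime `p ∤ N`. -/
theorem heckeT1_eq_smul {p : ℕ} (hp : p.Prime) (hpN : ¬ p ∣ N) :
    heckeT1 hp hpN f = ModularFormClass.qCoeff f p • f := by
  rw [← sub_eq_zero]
  refine eq_zero_of_qCoeff_eq_zero_of_not_dvd _ hp hpN fun n hn => ?_
  rw [qCoeff_sub, qCoeff_smul, qCoeff_heckeT1, if_neg hn, add_zero]
  have := hT p hp hpN n
  rw [if_neg hn, mul_zero, add_zero] at this
  rw [mul_comm n p, this, sub_self]

/-- `⟨p⟩ f = ε(p) f` for every prime `p ∤ N`. -/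
theorem diamond_primeUnit_eq_smul {p : ℕ} (hp : p.Prime) (hpN : ¬ p ∣ N) :
    diamond (primeUnit hp hpN) f = ε (p : ZMod N) • f := by
  refine eq_of_forall_qCoeff_eq fun m => ?_
  have h1 := congrArg (fun F : CuspForm (Gamma1 N : Subgroup (GL (Fin 2) ℝ)) 1 =>
    ModularFormClass.qCoeff (⇑F) (p * m)) (heckeT1_eq_smul ε f hT hp hpN)
  simp only [qCoeff_smul, qCoeff_heckeT1, if_pos (dvd_mul_right p m),
    Nat.mul_div_cancel_left m hp.pos, sub_self, zpow_zero, one_mul] at h1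
  have h2 := hT p hp hpN (p * m)
  rw [if_pos (dvd_mul_right p m), Nat.mul_div_cancel_left m hp.pos] at h2
  rw [qCoeff_smul]
  rw [mul_comm (p * m) p] at h1
  linear_combination h1 - h2

/-- **`⟨d⟩ f = ε(d) f`** for every `d : (ZMod N)ˣ`. -/
theorem diamond_eq_smul (d : (ZMod N)ˣ) : diamond d f = ε (d : ZMod N) • f := by
  obtain ⟨p, hp, hpN, hpd⟩ := exists_prime_not_dvd_natCast_eq d
  have hd : primeUnit hp hpN = d := Units.ext (by rw [coe_primeUnit, hpd])
  rw [← hd, diamond_primeUnit_eq_smul ε f hT hp hpN, coe_primeUnit]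

/-- **the nebentypus of `f` is `ε`**: `f ∣[1] γ = ε(d_γ) f` for all `γ ∈ Γ₀(N)`. -/
theorem nebentypus (γ : SL(2, ℤ)) (hγ : γ ∈ Gamma0 N) :
    ⇑f ∣[(1 : ℤ)] γ = ε ((γ 1 1 : ℤ) : ZMod N) • ⇑f := by
  set d : (ZMod N)ˣ := Units.mkOfMulEqOne ((γ 1 1 : ℤ) : ZMod N) ((γ 0 0 : ℤ) : ZMod N)
    (by rw [mul_comm]; exact upperLeft_mul_lowerRight hγ) with hd
  have hdc : ((γ 1 1 : ℤ) : ZMod N) = (d : ZMod N) := rfl
  rw [← coe_diamond d f hγ hdc, diamond_eq_smul ε f hT d, FunLike.coe_smul, hdc]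

end nebentypus

section odd

variable {N : ℕ} [NeZero N] (ε : DirichletCharacter ℂ N)
  (f : CuspForm (Gamma1 N : Subgroup (GL (Fin 2) ℝ)) 1)
  (hf₁ : ModularFormClass.qCoeff f 1 = 1)
  (hT : ∀ p : ℕ, p.Prime → ¬ p ∣ N → ∀ n : ℕ,
      ModularFormClass.qCoeff f (p * n) +
          ε (p : ZMod N) * (if p ∣ n then ModularFormClass.qCoeff f (n / p) else 0) =
        ModularFormClass.qCoeff f p * ModularFormClass.qCoeff f n)

omit [NeZero N] in
include hf₁ in
theorem coe_ne_zero_of_qCoeff_one : (⇑f : ℍ → ℂ) ≠ 0 := by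
  intro h0
  have : ModularFormClass.qCoeff f 1 = 0 := by
    unfold ModularFormClass.qCoeff
    rw [h0, qExpansion_zero]
    simp
  rw [hf₁] at this
  exact one_ne_zero this

theorem slash_neg_one_weight_one (F : ℍ → ℂ) : F ∣[(1 : ℤ)] (-1 : SL(2, ℤ)) = -F := by
  ext τ
  rw [ModularForm.SL_slash_apply, ModularGroup.SL_neg_smul, one_smul]
  have : denom ((-1 : SL(2, ℤ)) : GL (Fin 2) ℝ) τ = -1 := by
    simp [denom]
  rw [this]
  simp

include hf₁ hT in
/-- **`ε` is odd**: `ε(-1) = -1`. -/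
theorem eps_neg_one : ε (-1) = -1 := by
  have hmem : (-1 : SL(2, ℤ)) ∈ Gamma0 N := by
    refine Gamma0_mem.mpr ?_
    simp
  have h := nebentypus ε f hT (-1) hmem
  rw [slash_neg_one_weight_one] at h
  have hd : (((-1 : SL(2, ℤ)) 1 1 : ℤ) : ZMod N) = -1 := by simp
  rw [hd] at h
  obtain ⟨τ, hτ⟩ : ∃ τ, f τ ≠ 0 := by
    by_contra hcon
    push Not at hcon
    exact coe_ne_zero_of_qCoeff_one f hf₁ (funext hcon)
  have h2 := congrFun h τ
  simp only [Pi.neg_apply, Pi.smul_apply, smul_eq_mul] at h2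
  have : (ε (-1) + 1) * f τ = 0 := by linear_combination -h2
  rcases mul_eq_zero.mp this with h3 | h3
  · linear_combination h3
  · exact absurd h3 hτ

end odd

end Fermat.Agent.DS.Neben
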