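/-
PROGRAMME III (S48, Deligne–Serre), DS0b complement (helper2): `T_p` (`p ∤ N`) on `S_k(Γ₁(N))`
commutes with the slash by `Γ₀(N)` (hence with the diamond operators), is `ℂ`-linear, and
preserves every nebentypus eigenspace, with the classical `q`-expansion formula there:

`hasHecke_neben` : for `h ∈ S_k(Γ₁(M))` with `h ∣[k] γ = ψ(d_γ) h` (`γ ∈ Γ₀(M)`) there is `h'` with the
same property and `a_n(h') = a_{pn}(h) + ψ(p) p^{k-1} [p ∣ n] a_{n/p}(h)`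
(= helper28's named input `HasHecke M k ψ` of DS4-ALG, finding #1992, for `1 ≤ k`).
-/
import Mathlib
import Fermat.Prelude.Def_ModularForm_HeckeOperator
import Fermat.Prelude.Def_FLTPrelim_Modularity
import Fermat.Agent.DS.Neben.HeckeGamma1

set_option autoImplicit false

open scoped MatrixGroups ModularForm Manifold OnePoint
open Matrix Matrix.SpecialLinearGroup UpperHalfPlane CongruenceSubgroup ModularForm

noncomputable section

namespace Fermat.Agent.DS.Neben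

section functionLevel

variable {p : ℕ} [Fact p.Prime]

/-- how `Γ₀(N)` moves the twisted pair `(f, f')`, `f' = ⟨p⟩ f`: general form. -/
theorem twistFn_slash_Gamma0 {N : ℕ} [NeZero N] {k : ℤ} (hpN : ¬ p ∣ N) {f f' : ℍ → ℂ}
    (hf : ∀ g : SL(2, ℤ), g ∈ Gamma1 N → f ∣[k] g = f)
    (hf' : ∀ γ : SL(2, ℤ), γ ∈ Gamma0 N → ((γ 1 1 : ℤ) : ZMod N) = (p : ZMod N) → f ∣[k] γ = f')
    (x x' : OnePoint (ZMod p)) {g g' : SL(2, ℤ)} (hg : g ∈ Gamma0 N) (hg' : g' ∈ Gamma0 N)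
    (h : lowerRightRep N x' * ((g' 1 1 : ℤ) : ZMod N) =
      lowerRightRep N x * ((g 1 1 : ℤ) : ZMod N)) :
    twistFn f f' x ∣[k] g' = twistFn (f ∣[k] g) (f' ∣[k] g) x' := by
  have hcop : Nat.Coprime p N := (Nat.Prime.coprime_iff_not_dvd Fact.out).mpr hpN
  obtain ⟨γ₀, hγ₀, hγ₀d⟩ := exists_mem_Gamma0_lowerRight_eq (ZMod.unitOfCoprime p hcop)
  rw [ZMod.coe_unitOfCoprime] at hγ₀d
  have hf'eq : f' = f ∣[k] γ₀ := (hf' γ₀ hγ₀ hγ₀d).symm
  have hunit : IsUnit ((p : ℕ) : ZMod N) := (ZMod.isUnit_iff_coprime p N).mpr hcop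
  induction x using OnePoint.rec with
  | infty =>
    induction x' using OnePoint.rec with
    | infty =>
      rw [lowerRightRep_infty, one_mul, one_mul] at h
      rw [twistFn_infty, twistFn_infty, hf'eq, ← SlashAction.slash_mul, ← SlashAction.slash_mul]
      refine slash_eq_of_lowerRight_eq hf (mul_mem hγ₀ hg') (mul_mem hγ₀ hg) ?_
      rw [lowerRight_mul hγ₀, lowerRight_mul hγ₀, h]
    | coe j' =>
      rw [lowerRightRep_infty, lowerRightRep_coe, one_mul] at h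
      rw [twistFn_infty, twistFn_coe, hf'eq, ← SlashAction.slash_mul]
      refine slash_eq_of_lowerRight_eq hf (mul_mem hγ₀ hg') hg ?_
      rw [lowerRight_mul hγ₀, hγ₀d, h]
  | coe j =>
    induction x' using OnePoint.rec with
    | infty =>
      rw [lowerRightRep_infty, lowerRightRep_coe, one_mul] at h
      rw [twistFn_infty, twistFn_coe, hf'eq, ← SlashAction.slash_mul]
      refine slash_eq_of_lowerRight_eq hf hg' (mul_mem hγ₀ hg) ?_
      rw [lowerRight_mul hγ₀, hγ₀d, h]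
    | coe j' =>
      rw [lowerRightRep_coe, lowerRightRep_coe] at h
      rw [twistFn_coe, twistFn_coe]
      exact slash_eq_of_lowerRight_eq hf hg' hg (hunit.mul_left_cancel h)

/-- **`T_p` commutes with the slash by `Γ₀(N)`** (function level). -/
theorem heckeT1Fun_slash_Gamma0 {N : ℕ} [NeZero N] (k : ℤ) (hpN : ¬ p ∣ N) {f f' : ℍ → ℂ}
    (hf : ∀ g : SL(2, ℤ), g ∈ Gamma1 N → f ∣[k] g = f)
    (hf' : ∀ γ : SL(2, ℤ), γ ∈ Gamma0 N → ((γ 1 1 : ℤ) : ZMod N) = (p : ZMod N) → f ∣[k] γ = f')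
    {g : SL(2, ℤ)} (hg : g ∈ Gamma0 N) :
    (heckeU k p f + f' ∣[k] heckeDiagMatrix p) ∣[k] (mapGL ℝ g) =
      heckeU k p (f ∣[k] g) + (f' ∣[k] g) ∣[k] heckeDiagMatrix p := by
  have : NeZero p := neZero_of_fact_prime
  rw [heckeT1Fun_eq_sum k f f', heckeT1Fun_eq_sum k (f ∣[k] g) (f' ∣[k] g), SlashAction.sum_slash]
  calc ∑ x : OnePoint (ZMod p), (twistFn f f' x ∣[k] heckeRep p x) ∣[k] mapGL ℝ g
      = ∑ x : OnePoint (ZMod p), twistFn (f ∣[k] g) (f' ∣[k] g) (redMatrix p g • x) ∣[k]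
          heckeRep p (redMatrix p g • x) := by
        refine Finset.sum_congr rfl fun x _ ↦ ?_
        obtain ⟨g', hg', hd, hmul⟩ := heckeRep_mul hpN g hg x
        rw [← SlashAction.slash_mul, hmul, SlashAction.slash_mul]
        congr 1
        exact twistFn_slash_Gamma0 hpN hf hf' x _ hg hg' hd
    _ = ∑ x : OnePoint (ZMod p), twistFn (f ∣[k] g) (f' ∣[k] g) x ∣[k] heckeRep p x :=
        Equiv.sum_comp (MulAction.toPerm (redMatrix p g))
          (fun x ↦ twistFn (f ∣[k] g) (f' ∣[k] g) x ∣[k] heckeRep p x)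

end functionLevel

section operator

variable {N : ℕ} [NeZero N] {k : ℤ} {p : ℕ}

/-- the diamond operators commute with the slash by `Γ₀(N)`. -/
theorem diamond_slashGamma0 (d : (ZMod N)ˣ) {γ : SL(2, ℤ)} (hγ : γ ∈ Gamma0 N)
    (f : CuspForm (Gamma1 N : Subgroup (GL (Fin 2) ℝ)) k) :
    diamond d (slashGamma0 γ hγ f) = slashGamma0 γ hγ (diamond d f) := by
  apply DFunLike.coe_injective
  obtain ⟨γ₀, hγ₀, hγ₀d⟩ := exists_mem_Gamma0_lowerRight_eq d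
  rw [coe_diamond d _ hγ₀ hγ₀d, coe_slashGamma0, coe_slashGamma0, coe_diamond d f hγ₀ hγ₀d,
    ← SlashAction.slash_mul, ← SlashAction.slash_mul]
  refine slash_eq_of_lowerRight_eq (fun g hg => slash_eq_self_of_mem_Gamma1 f hg)
    (mul_mem hγ hγ₀) (mul_mem hγ₀ hγ) ?_
  rw [lowerRight_mul hγ, lowerRight_mul hγ₀, mul_comm]

/-- **`T_p` commutes with the slash by `Γ₀(N)`**. -/
theorem heckeT1_slashGamma0 (hp : p.Prime) (hpN : ¬ p ∣ N) {γ : SL(2, ℤ)} (hγ : γ ∈ Gamma0 N)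
    (f : CuspForm (Gamma1 N : Subgroup (GL (Fin 2) ℝ)) k) :
    heckeT1 hp hpN (slashGamma0 γ hγ f) = slashGamma0 γ hγ (heckeT1 hp hpN f) := by
  have : Fact p.Prime := ⟨hp⟩
  apply DFunLike.coe_injective
  rw [coe_slashGamma0 γ hγ (heckeT1 hp hpN f), coe_heckeT1, coe_heckeT1, diamond_slashGamma0,
    coe_slashGamma0, coe_slashGamma0]
  symm
  refine heckeT1Fun_slash_Gamma0 k hpN (fun g hg => slash_eq_self_of_mem_Gamma1 f hg) ?_ hγ
  intro γ' hγ' hd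
  exact (coe_diamond (primeUnit hp hpN) f hγ' (by rw [hd, coe_primeUnit])).symm

/-- `T_p` commutes with the diamond operators. -/
theorem heckeT1_diamond (hp : p.Prime) (hpN : ¬ p ∣ N) (d : (ZMod N)ˣ)
    (f : CuspForm (Gamma1 N : Subgroup (GL (Fin 2) ℝ)) k) :
    heckeT1 hp hpN (diamond d f) = diamond d (heckeT1 hp hpN f) := by
  obtain ⟨γ₀, hγ₀, hγ₀d⟩ := exists_mem_Gamma0_lowerRight_eq d
  rw [diamond_eq_slashGamma0 d f hγ₀ hγ₀d, diamond_eq_slashGamma0 d _ hγ₀ hγ₀d,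
    heckeT1_slashGamma0]

theorem heckeT1_add (hp : p.Prime) (hpN : ¬ p ∣ N)
    (f g : CuspForm (Gamma1 N : Subgroup (GL (Fin 2) ℝ)) k) :
    heckeT1 hp hpN (f + g) = heckeT1 hp hpN f + heckeT1 hp hpN g := by
  apply DFunLike.coe_injective
  rw [FunLike.coe_add, coe_heckeT1, coe_heckeT1, coe_heckeT1, diamond_add, FunLike.coe_add,
    FunLike.coe_add, heckeU_add, SlashAction.add_slash]
  abel

theorem heckeT1_smul (hp : p.Prime) (hpN : ¬ p ∣ N) (c : ℂ)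
    (f : CuspForm (Gamma1 N : Subgroup (GL (Fin 2) ℝ)) k) :
    heckeT1 hp hpN (c • f) = c • heckeT1 hp hpN f := by
  apply DFunLike.coe_injective
  rw [FunLike.coe_smul, coe_heckeT1, coe_heckeT1, diamond_smul, FunLike.coe_smul,
    FunLike.coe_smul, heckeU_smul, ModularForm.smul_slash, σ_heckeDiagMatrix,
    ContinuousAlgEquiv.refl_apply, smul_add]

/-- `T_p` as a `ℂ`-linear endomorphism of `S_k(Γ₁(N))`. -/
def heckeT1Lin (hp : p.Prime) (hpN : ¬ p ∣ N) :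
    CuspForm (Gamma1 N : Subgroup (GL (Fin 2) ℝ)) k →ₗ[ℂ]
      CuspForm (Gamma1 N : Subgroup (GL (Fin 2) ℝ)) k where
  toFun := heckeT1 hp hpN
  map_add' := heckeT1_add hp hpN
  map_smul' := heckeT1_smul hp hpN

@[simp] theorem heckeT1Lin_apply (hp : p.Prime) (hpN : ¬ p ∣ N)
    (f : CuspForm (Gamma1 N : Subgroup (GL (Fin 2) ℝ)) k) :
    heckeT1Lin hp hpN f = heckeT1 hp hpN f := rfl

/-- `⟨d⟩` as a `ℂ`-linear endomorphism of `S_k(Γ₁(N))`. -/
def diamondLin (d : (ZMod N)ˣ) :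
    CuspForm (Gamma1 N : Subgroup (GL (Fin 2) ℝ)) k →ₗ[ℂ]
      CuspForm (Gamma1 N : Subgroup (GL (Fin 2) ℝ)) k where
  toFun := diamond d
  map_add' := diamond_add d
  map_smul' := diamond_smul d

@[simp] theorem diamondLin_apply (d : (ZMod N)ˣ)
    (f : CuspForm (Gamma1 N : Subgroup (GL (Fin 2) ℝ)) k) :
    diamondLin d f = diamond d f := rfl

end operator

section neben

variable {N : ℕ} [NeZero N] {k : ℤ} {p : ℕ}

/-- a form with nebentypus `ψ` is an eigenvector of the diamond operators. -/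
theorem diamond_eq_smul_of_neben (ψ : DirichletCharacter ℂ N)
    (h : CuspForm (Gamma1 N : Subgroup (GL (Fin 2) ℝ)) k)
    (hneb : ∀ γ : SL(2, ℤ), γ ∈ Gamma0 N → ⇑h ∣[k] γ = ψ ((γ 1 1 : ℤ) : ZMod N) • ⇑h)
    (d : (ZMod N)ˣ) : diamond d h = ψ (d : ZMod N) • h := by
  apply DFunLike.coe_injective
  obtain ⟨γ₀, hγ₀, hγ₀d⟩ := exists_mem_Gamma0_lowerRight_eq d
  rw [coe_diamond d h hγ₀ hγ₀d, hneb γ₀ hγ₀, hγ₀d, FunLike.coe_smul]

/-- **`T_p` preserves the nebentypus-`ψ` eigenspace.** -/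
theorem heckeT1_neben (ψ : DirichletCharacter ℂ N) (hp : p.Prime) (hpN : ¬ p ∣ N)
    (h : CuspForm (Gamma1 N : Subgroup (GL (Fin 2) ℝ)) k)
    (hneb : ∀ γ : SL(2, ℤ), γ ∈ Gamma0 N → ⇑h ∣[k] γ = ψ ((γ 1 1 : ℤ) : ZMod N) • ⇑h)
    (γ : SL(2, ℤ)) (hγ : γ ∈ Gamma0 N) :
    ⇑(heckeT1 hp hpN h) ∣[k] γ = ψ ((γ 1 1 : ℤ) : ZMod N) • ⇑(heckeT1 hp hpN h) := by
  have h1 : slashGamma0 γ hγ h = ψ ((γ 1 1 : ℤ) : ZMod N) • h :=
    DFunLike.coe_injective (by rw [coe_slashGamma0, hneb γ hγ, FunLike.coe_smul])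
  rw [← coe_slashGamma0 γ hγ, ← heckeT1_slashGamma0, h1, heckeT1_smul, FunLike.coe_smul]

/-- **the `q`-expansion of `T_p` on the nebentypus-`ψ` eigenspace**:
`a_n(T_p h) = a_{pn}(h) + ψ(p) p^{k-1} [p ∣ n] a_{n/p}(h)`. -/
theorem qCoeff_heckeT1_neben (ψ : DirichletCharacter ℂ N) (hp : p.Prime) (hpN : ¬ p ∣ N)
    (h : CuspForm (Gamma1 N : Subgroup (GL (Fin 2) ℝ)) k)
    (hneb : ∀ γ : SL(2, ℤ), γ ∈ Gamma0 N → ⇑h ∣[k] γ = ψ ((γ 1 1 : ℤ) : ZMod N) • ⇑h) (n : ℕ) :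
    ModularFormClass.qCoeff (heckeT1 hp hpN h) n =
      ModularFormClass.qCoeff h (p * n) + ψ (p : ZMod N) * (p : ℂ) ^ (k - 1) *
        (if p ∣ n then ModularFormClass.qCoeff h (n / p) else 0) := by
  rw [qCoeff_heckeT1, diamond_eq_smul_of_neben ψ h hneb, coe_primeUnit, mul_comm n p]
  congr 1
  split_ifs with hpn
  · have han : AnalyticAt ℂ (cuspFunction 1 ⇑h) 0 :=
      ModularFormClass.analyticAt_cuspFunction_zero h one_pos (one_mem_strictPeriods_Gamma1' N)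
    have : ModularFormClass.qCoeff (⇑(ψ (p : ZMod N) • h)) (n / p) =
        ψ (p : ZMod N) * ModularFormClass.qCoeff h (n / p) := by
      unfold ModularFormClass.qCoeff
      rw [FunLike.coe_smul, qExpansion_smul han, PowerSeries.coeff_smul, smul_eq_mul]
    rw [this]
    ring
  · rw [mul_zero]

/-- **helper28's `HasHecke M k ψ`** (DS4-ALG, finding #1992), for natural weights `k ≥ 1`. -/
theorem hasHecke_neben (M : ℕ) [NeZero M] (k : ℕ) (hk : 1 ≤ k) (ψ : DirichletCharacter ℂ M) :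
    ∀ p : ℕ, p.Prime → ¬ p ∣ M →
      ∀ h : CuspForm (Gamma1 M : Subgroup (GL (Fin 2) ℝ)) k,
        (∀ γ : SL(2, ℤ), γ ∈ Gamma0 M → ⇑h ∣[(k : ℤ)] γ = ψ ((γ 1 1 : ℤ) : ZMod M) • ⇑h) →
        ∃ h' : CuspForm (Gamma1 M : Subgroup (GL (Fin 2) ℝ)) k,
          (∀ γ : SL(2, ℤ), γ ∈ Gamma0 M →
            ⇑h' ∣[(k : ℤ)] γ = ψ ((γ 1 1 : ℤ) : ZMod M) • ⇑h') ∧
          ∀ n : ℕ, ModularFormClass.qCoeff h' n =
            ModularFormClass.qCoeff h (p * n) + ψ (p : ZMod M) * (p : ℂ) ^ (k - 1) *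
              (if p ∣ n then ModularFormClass.qCoeff h (n / p) else 0) := by
  intro p hp hpM h hneb
  refine ⟨heckeT1 hp hpM h, heckeT1_neben ψ hp hpM h hneb, fun n => ?_⟩
  rw [qCoeff_heckeT1_neben ψ hp hpM h hneb]
  congr 3
  rw [show ((k : ℤ) - 1) = ((k - 1 : ℕ) : ℤ) by omega, zpow_natCast]

/-- a cusp form of weight `0` on `Γ₁(M)` vanishes. -/
theorem cuspForm_weight_zero_eq_zero (M : ℕ) [NeZero M]
    (h : CuspForm (Gamma1 M : Subgroup (GL (Fin 2) ℝ)) 0) : h = 0 := by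
  obtain ⟨c, hc⟩ := ModularForm.eq_const_of_weight_zero (ModularFormClass.modularForm h)
  have hc' : (⇑h : ℍ → ℂ) = Function.const ℍ c := hc
  have hzero : IsZeroAtImInfty (⇑h : ℍ → ℂ) := CuspFormClass.zero_at_infty h
  rw [hc'] at hzero
  have hc0 : c = 0 := by
    have h1 : Filter.Tendsto (Function.const ℍ c) atImInfty (nhds 0) := hzero
    exact tendsto_nhds_unique tendsto_const_nhds h1
  apply DFunLike.coe_injective
  rw [hc', hc0]
  rfl

/-- **helper28's `HasHecke M k ψ`** (DS4-ALG, finding #1992), verbatim, for all `k : ℕ`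
(weight `0` is vacuous: there are no cusp forms). -/
theorem hasHecke_neben' (M k : ℕ) [NeZero M] (ψ : DirichletCharacter ℂ M) :
    ∀ p : ℕ, p.Prime → ¬ p ∣ M →
      ∀ h : CuspForm (Gamma1 M : Subgroup (GL (Fin 2) ℝ)) k,
        (∀ γ : SL(2, ℤ), γ ∈ Gamma0 M → ⇑h ∣[(k : ℤ)] γ = ψ ((γ 1 1 : ℤ) : ZMod M) • ⇑h) →
        ∃ h' : CuspForm (Gamma1 M : Subgroup (GL (Fin 2) ℝ)) k,
          (∀ γ : SL(2, ℤ), γ ∈ Gamma0 M →
            ⇑h' ∣[(k : ℤ)] γ = ψ ((γ 1 1 : ℤ) : ZMod M) • ⇑h') ∧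
          ∀ n : ℕ, ModularFormClass.qCoeff h' n =
            ModularFormClass.qCoeff h (p * n) + ψ (p : ZMod M) * (p : ℂ) ^ (k - 1) *
              (if p ∣ n then ModularFormClass.qCoeff h (n / p) else 0) := by
  rcases Nat.eq_zero_or_pos k with rfl | hk
  · intro p _ _ h hneb
    have h0 : h = 0 := cuspForm_weight_zero_eq_zero M h
    have hq : ∀ n : ℕ, ModularFormClass.qCoeff (⇑h : ℍ → ℂ) n = 0 := by
      intro n
      unfold ModularFormClass.qCoeff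
      rw [h0, FunLike.coe_zero, qExpansion_zero]
      simp
    refine ⟨h, hneb, fun n => ?_⟩
    rw [hq, hq, hq]
    simp
  · exact hasHecke_neben M k hk ψ

end neben

end Fermat.Agent.DS.Neben
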