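/-
PROGRAMME III (S48, Deligne–Serre): helper28's named input `Fermat.Agent.DS.DS4.HasHecke M k ψ`
(DS4-ALG, finding #1992) is a theorem (helper2; `DS/DS4/Defs.lean` vendored byte-identically from
origin/helper28).
-/
import Fermat.Agent.DS.DS4.Defs
import Fermat.Agent.DS.Neben.HeckeNeben
import Fermat.Agent.DS.Neben.Main

set_option autoImplicit false

open scoped MatrixGroups ModularForm
open CongruenceSubgroup UpperHalfPlane

namespace Fermat.Agent.DS.Neben

/-- **`HasHecke M k ψ`**: `T_p` (`p ∤ M`) preserves the nebentypus-`ψ` subspace of `S_k(Γ₁(M))`,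
with `a_n(T_p h) = a_{pn}(h) + ψ(p) p^{k-1} [p ∣ n] a_{n/p}(h)`. -/
theorem hasHecke (M k : ℕ) [NeZero M] (ψ : DirichletCharacter ℂ M) :
    Fermat.Agent.DS.DS4.HasHecke M k ψ :=
  hasHecke_neben' M k ψ

/-- the frozen S48 relations force nebentypus `ε`, in the `IsNeben` vocabulary. -/
theorem isNeben_of_hT {N : ℕ} [NeZero N] (ε : DirichletCharacter ℂ N)
    (g : CuspForm (Gamma1 N : Subgroup (GL (Fin 2) ℝ)) 1)
    (hT : ∀ p : ℕ, p.Prime → ¬ p ∣ N → ∀ n : ℕ,
      ModularFormClass.qCoeff g (p * n) +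
          ε (p : ZMod N) * (if p ∣ n then ModularFormClass.qCoeff g (n / p) else 0) =
        ModularFormClass.qCoeff g p * ModularFormClass.qCoeff g n) :
    Fermat.Agent.DS.DS4.IsNeben 1 ε g :=
  nebentypus ε g hT

end Fermat.Agent.DS.Neben
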